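import Mathlib.Algebra.Group.Units.Basic
import Mathlib.Algebra.Module.LinearMap.Basic
import Fermat.Agent.RT.GammaH.Fibre

/-!
# Corestriction for a normal subgroup

For `Γ' ≤ Γ` and coefficients in which `2` is invertible and without `3`-torsion, corestriction
`Hom(Γ', A) → Hom(Γ, A)` is surjective: Shapiro's lemma and the freeness of cocycles on the
generators `S`, `Gamma0.ST`, outside the fixed points of the latter.
-/

set_option autoImplicit false

noncomputable section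

namespace Fermat.Agent.RT.GammaH

open Matrix.SpecialLinearGroup
open scoped MatrixGroups

variable {Γ' Γ : Subgroup SL(2, ℤ)} {ι : Type*} {σ : ι → SL(2, ℤ)} {A : Type*} [AddCommGroup A]
  {R : Type*} [Semiring R] [Module R A]

variable (R) in
/-- Restriction. -/
def res (hle : Γ' ≤ Γ) : (Additive Γ →+ A) →ₗ[R] (Additive Γ' →+ A) where
  toFun φ := φ.comp (Subgroup.inclusion hle).toAdditive
  map_add' _ _ := rfl
  map_smul' _ _ := rfl

theorem res_apply (hle : Γ' ≤ Γ) (φ : Additive Γ →+ A) (γ : Γ') :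
    res R hle φ (Additive.ofMul γ) = φ (Additive.ofMul (Subgroup.inclusion hle γ)) := rfl

theorem admissible_res (hle : Γ' ≤ Γ) : Admissible Γ Γ' fun _ : Unit => (1 : GLR) := fun γ =>
  ⟨id, Function.bijective_id, fun _ => by simpa using mapGL_mem_img.2 (hle γ.2)⟩

theorem res_eq_opOf (hle : Γ' ≤ Γ) : res (A := A) R hle = opOf (admissible_res hle) R :=
  opOf_ext fun φ γ => by
    rw [opOf_apply_of_isPerm _ _ _ (σ := id)
      ⟨Function.bijective_id, fun _ => by simpa using mapGL_mem_img.2 (hle γ.2)⟩, res_apply]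
    simp only [Finset.univ_unique, Finset.sum_singleton, one_mul, inv_one, mul_one]
    exact (onImg_mapGL φ (Subgroup.inclusion hle γ)).symm

theorem admissible_conj {s : SL(2, ℤ)} (hs : ∀ γ ∈ Γ', s * γ * s⁻¹ ∈ Γ') :
    Admissible Γ' Γ' fun _ : Unit => mapGL ℝ s := fun γ =>
  ⟨id, Function.bijective_id, fun _ => by
    simp only [id, ← map_inv, ← map_mul]
    exact mapGL_mem_img.2 (hs _ γ.2)⟩

theorem opOf_conj_apply {s : SL(2, ℤ)} (hs : ∀ γ ∈ Γ', s * γ * s⁻¹ ∈ Γ')
    (φ : Additive Γ' →+ A) (γ : Γ') :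
    opOf (admissible_conj hs) R φ (Additive.ofMul γ) =
      φ (Additive.ofMul ⟨s * γ * s⁻¹, hs _ γ.2⟩) := by
  rw [opOf_apply_of_isPerm _ _ _ (σ := id) ⟨Function.bijective_id, fun _ => by
    simp only [id, ← map_inv, ← map_mul]
    exact mapGL_mem_img.2 (hs _ γ.2)⟩]
  simp only [Finset.univ_unique, Finset.sum_singleton, id, ← map_inv, ← map_mul]
  exact onImg_mapGL φ ⟨_, hs _ γ.2⟩

namespace IsCoreps

variable (h : IsCoreps Γ' Γ σ)

include h in
theorem conj_mem (i : ι) : ∀ γ ∈ Γ', σ i * γ * (σ i)⁻¹ ∈ Γ' := fun γ hγ => (h.conj i γ).1 hγ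

variable (R) in
/-- The action of `σ i` by conjugation. -/
def conjOp (i : ι) : Module.End R (Additive Γ' →+ A) := opOf (admissible_conj (h.conj_mem i)) R

theorem conjOp_apply (i : ι) (φ : Additive Γ' →+ A) (γ : Γ') :
    h.conjOp R i φ (Additive.ofMul γ) = φ (Additive.ofMul ⟨_, h.conj_mem i _ γ.2⟩) :=
  opOf_conj_apply _ φ γ

variable [Fintype ι]

include h in
theorem admissible : Admissible Γ' Γ fun i => mapGL ℝ (σ i) :=
  h.isReps.admissible fun _ hg γ => mul_mem hg (mapGL_mem_img.2 γ.2)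

variable (R) in
/-- Corestriction. -/
def cores : (Additive Γ' →+ A) →ₗ[R] (Additive Γ →+ A) := opOf h.admissible R

theorem res_cores (φ : Additive Γ' →+ A) :
    res R h.le (h.cores R φ) = ∑ i, h.conjOp R i φ := by
  refine AddMonoidHom.ext fun x => ?_
  obtain ⟨γ, rfl⟩ := Additive.ofMul.surjective x
  have hperm : IsPerm Γ' (fun i => (mapGL ℝ (σ i) : GLR))
      (mapGL ℝ ((Subgroup.inclusion h.le γ : Γ) : SL(2, ℤ))) id :=
    ⟨Function.bijective_id, fun i => by
      simp only [id, Subgroup.coe_inclusion, ← map_inv, ← map_mul]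
      exact mapGL_mem_img.2 (h.conj_mem i _ γ.2)⟩
  rw [res_apply, cores, opOf_apply_of_isPerm _ _ _ hperm, AddMonoidHom.finsetSum_apply]
  refine Finset.sum_congr rfl fun i _ => ?_
  rw [h.conjOp_apply, ← onImg_mapGL φ]
  simp

theorem cores_res (φ : Additive Γ →+ A) :
    h.cores R (res R h.le φ) = Fintype.card ι • φ := by
  refine AddMonoidHom.ext fun x => ?_
  obtain ⟨γ, rfl⟩ := Additive.ofMul.surjective x
  obtain ⟨τ, hτ⟩ := h.admissible γ
  rw [cores, opOf_apply_of_isPerm _ _ _ hτ]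
  choose c hc using fun i => exists_of_mem_img (hτ.2 i)
  have hval : ∀ i, (c i : SL(2, ℤ)) = σ i * γ * (σ (τ i))⁻¹ := fun i =>
    Periods.mapGL_int_injective (by rw [hc, map_mul, map_mul, map_inv])
  have key : ∀ i, res R h.le φ (Additive.ofMul (c i)) =
      φ (Additive.ofMul ⟨σ i, h.mem i⟩) + φ (Additive.ofMul γ) -
        φ (Additive.ofMul ⟨σ (τ i), h.mem _⟩) := fun i => by
    rw [res_apply, eq_sub_iff_add_eq, ← φ.map_add, ← φ.map_add, ← ofMul_mul, ← ofMul_mul]
    exact congrArg _ (congrArg _ (Subtype.ext (by simp [hval])))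
  simp only [← hc, onImg_mapGL, key, Finset.sum_sub_distrib, Finset.sum_add_distrib,
    hτ.1.sum_comp fun i => φ (Additive.ofMul ⟨σ i, h.mem i⟩), add_sub_cancel_left,
    Finset.sum_const, Finset.card_univ]
  rfl

section Cocycle

open Gamma0

variable {c : SL(2, ℤ) → SL(2, ℤ) ⧸ Γ' → A}

theorem isCocycle_fibreSum (hc : IsCocycle c) :
    IsCocycle fun g x => h.fibreSum (c g) x := by
  intro a b x
  show h.fibreSum (c (a * b)) x = _
  rw [show c (a * b) = (fun y => c a (b • y)) + c b from funext fun y => hc a b y, h.fibreSum_add,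
    h.fibreSum_comp_smul b]

theorem cores_toHom (hc : IsCocycle c) :
    h.cores R hc.toHom = (h.isCocycle_fibreSum hc).toHom := by
  refine AddMonoidHom.ext fun x => ?_
  obtain ⟨γ, rfl⟩ := Additive.ofMul.surjective x
  obtain ⟨τ, hτ⟩ := h.admissible γ
  rw [cores, opOf_apply_of_isPerm _ _ _ hτ, IsCocycle.toHom_apply]
  choose d hd using fun i => exists_of_mem_img (hτ.2 i)
  have hval : ∀ i, (d i : SL(2, ℤ)) = σ i * γ * (σ (τ i))⁻¹ := fun i =>
    Periods.mapGL_int_injective (by rw [hd, map_mul, map_mul, map_inv])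
  set y : ι → SL(2, ℤ) ⧸ Γ' := fun i => (((σ i)⁻¹ : SL(2, ℤ)) : SL(2, ℤ) ⧸ Γ')
  have hy : ∀ i, σ i • y i = QuotientGroup.mk 1 := fun i => by
    simp [y, MulAction.Quotient.smul_coe]
  have hγy : ∀ i, (γ : SL(2, ℤ)) • y (τ i) = y i := fun i => by
    rw [MulAction.Quotient.smul_coe, smul_eq_mul, QuotientGroup.eq]
    have := inv_mem (d i).2
    rw [hval] at this
    simpa [mul_assoc] using this
  have hσy : ∀ i, (σ i)⁻¹ • (QuotientGroup.mk 1 : SL(2, ℤ) ⧸ Γ') = y i := fun i => by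
    simp [y, MulAction.Quotient.smul_coe]
  have key : ∀ i, hc.toHom (Additive.ofMul (d i)) =
      c (σ i) (y i) + c (γ : SL(2, ℤ)) (y (τ i)) - c (σ (τ i)) (y (τ i)) := fun i => by
    rw [IsCocycle.toHom_apply, hval, hc, hc, hc.map_inv, hσy, hγy, sub_eq_add_neg]
  simp only [← hd, onImg_mapGL, key, Finset.sum_sub_distrib, Finset.sum_add_distrib,
    hτ.1.sum_comp fun i => c (σ i) (y i), add_sub_cancel_left,
    hτ.1.sum_comp fun i => c (γ : SL(2, ℤ)) (y i)]
  rw [h.fibreSum_eq (y := QuotientGroup.mk 1) (h.proj_mk 1)]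
  simp only [h.rightMul_one_eq]
  rfl

omit [Fintype ι] in
theorem isCocycle_rightMul (hc : IsCocycle c) (i : ι) :
    IsCocycle fun g y => c g (h.rightMul i y) := by
  intro a b x
  show c (a * b) _ = c a _ + c b _
  rw [hc, h.rightMul_smul]

omit [Fintype ι] in
theorem conjOp_toHom (hc : IsCocycle c) (i : ι) :
    h.conjOp R i hc.toHom = (h.isCocycle_rightMul hc i).toHom := by
  refine AddMonoidHom.ext fun x => ?_
  obtain ⟨γ, rfl⟩ := Additive.ofMul.surjective x
  rw [h.conjOp_apply, IsCocycle.toHom_apply, IsCocycle.toHom_apply, h.rightMul_one_eq, hc, hc,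
    hc.map_inv]
  have h1 : (σ i)⁻¹ • (QuotientGroup.mk 1 : SL(2, ℤ) ⧸ Γ') = (((σ i)⁻¹ : SL(2, ℤ)) : SL(2, ℤ) ⧸ Γ') := by
    simp [MulAction.Quotient.smul_coe]
  have h2 : (γ : SL(2, ℤ)) • (((σ i)⁻¹ : SL(2, ℤ)) : SL(2, ℤ) ⧸ Γ') =
      (((σ i)⁻¹ : SL(2, ℤ)) : SL(2, ℤ) ⧸ Γ') := by
    rw [MulAction.Quotient.smul_coe, smul_eq_mul, QuotientGroup.eq]
    simpa [mul_assoc] using h.conj_mem i _ (inv_mem γ.2)
  rw [h1, h2]
  abel

end Cocycle

section Invertible

open Gamma0

variable (h2 : IsUnit (2 : R))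

include h2 in
omit h [Fintype ι] in
theorem apply_neg_one (hneg : -1 ∈ Γ) (φ : Additive Γ →+ A) :
    φ (Additive.ofMul ⟨-1, hneg⟩) = 0 := by
  set a := φ (Additive.ofMul ⟨-1, hneg⟩) with ha
  have h0 : a + a = 0 := by
    rw [ha, ← map_add, ← ofMul_mul]
    convert map_zero φ
    refine congrArg Additive.ofMul (Subtype.ext ?_)
    simp
  obtain ⟨u, hu⟩ := h2
  have : (2 : R) • a = 0 := by rw [← one_add_one_eq_two, add_smul, one_smul, h0]
  rw [← hu, ← Units.smul_def] at this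
  exact (smul_eq_zero_iff_eq u).1 this

variable (R) in
/-- The symmetrisation making `u` satisfy the relation of `S`. -/
def projS (u : R) (w : SL(2, ℤ) ⧸ Γ' → A) : SL(2, ℤ) ⧸ Γ' → A :=
  u • (w - fun y => w (ModularGroup.S • y))

/-- The symmetrisation making `v` satisfy the relation of `Gamma0.ST`; `e` is a weight function on
the orbits of `Gamma0.ST`. -/
def projR (e : SL(2, ℤ) ⧸ Γ' → ℕ) (w : SL(2, ℤ) ⧸ Γ' → A) : SL(2, ℤ) ⧸ Γ' → A := fun y =>
  (e y + e (Gamma0.ST • y) + e (Gamma0.ST • Gamma0.ST • y)) • w y -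
    e y • (w y + w (Gamma0.ST • y) + w (Gamma0.ST • Gamma0.ST • y))

omit [Fintype ι] h in
theorem isRelPair_proj (hneg : -1 ∈ Γ') (a : R) (e : SL(2, ℤ) ⧸ Γ' → ℕ)
    (w w' : SL(2, ℤ) ⧸ Γ' → A) : IsRelPair (projS R a w) (projR e w') := by
  have hSS : ∀ x : SL(2, ℤ) ⧸ Γ', ModularGroup.S • ModularGroup.S • x = x := fun x => by
    rw [← mul_smul, S_mul_S, neg_one_smul_coset hneg]
  have hRRR : ∀ x : SL(2, ℤ) ⧸ Γ', Gamma0.ST • Gamma0.ST • Gamma0.ST • x = x := fun x => by
    rw [← mul_smul, ← mul_smul, ← pow_two, ← pow_succ, ST_pow_three, neg_one_smul_coset hneg]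
  refine ⟨fun x => ?_, fun x => ?_⟩
  · simp only [projS, Pi.smul_apply, Pi.sub_apply, hSS, ← smul_add]
    rw [show w x - w (ModularGroup.S • x) + (w (ModularGroup.S • x) - w x) = 0 by abel, smul_zero]
  · simp only [projR, hRRR, add_smul, smul_add]
    abel

include h2 in
omit [Fintype ι] h in
theorem exists_half : ∃ a : R, ∀ x : A, a • (x + x) = x := by
  obtain ⟨u, hu⟩ := h2
  refine ⟨(u⁻¹ : Rˣ), fun x => ?_⟩
  rw [← two_nsmul, ← Nat.cast_smul_eq_nsmul R, Nat.cast_ofNat, ← hu, ← Units.smul_def,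
    ← Units.smul_def, inv_smul_smul]

omit [Fintype ι] h in
/-- A weight function on the orbits of `Gamma0.ST`: total `0` at the fixed points, `1` elsewhere. -/
theorem exists_orbit_weight {X : Type*} (σ : X → X) (hσ : ∀ x, σ (σ (σ x)) = x) :
    ∃ e : X → ℕ, ∀ x, (σ x = x → e x + e (σ x) + e (σ (σ x)) = 0) ∧
      (σ x ≠ x → e x + e (σ x) + e (σ (σ x)) = 1) := by
  classical
  let := linearOrderOfSTO (WellOrderingRel (α := X))
  refine ⟨fun x => if x < σ x ∧ x < σ (σ x) then 1 else 0, fun x => ⟨fun hx => ?_, fun hx => ?_⟩⟩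
  · simp [hx]
  · have h12 : σ x ≠ σ (σ x) := fun hc => hx (by
      have := congrArg (fun z => σ (σ z)) hc
      simpa [hσ] using this.symm)
    have h02 : x ≠ σ (σ x) := fun hc => h12 (by
      conv_lhs => rw [hc, hσ]
      exact hc)
    simp only [hσ]
    rcases lt_trichotomy x (σ x) with h0 | h0 | h0 <;>
      rcases lt_trichotomy (σ x) (σ (σ x)) with h1 | h1 | h1 <;>
      rcases lt_trichotomy x (σ (σ x)) with h2 | h2 | h2 <;>
      first
        | exact absurd h0.symm hx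
        | exact absurd h1 h12
        | exact absurd h2 h02
        | exact absurd (h0.trans (h1.trans h2)) (lt_irrefl _)
        | exact absurd (h2.trans (h1.trans h0)) (lt_irrefl _)
        | simp [h0, h1, h2, h0.not_gt, h1.not_gt, h2.not_gt]

omit [Fintype ι] h in
/-- The weights for the action of `Gamma0.ST` on the cosets. -/
theorem exists_ST_weight (hneg : -1 ∈ Γ) : ∃ e : SL(2, ℤ) ⧸ Γ → ℕ, ∀ x,
    (Gamma0.ST • x = x →
      e x + e (Gamma0.ST • x) + e (Gamma0.ST • Gamma0.ST • x) = 0) ∧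
    (Gamma0.ST • x ≠ x →
      e x + e (Gamma0.ST • x) + e (Gamma0.ST • Gamma0.ST • x) = 1) :=
  exists_orbit_weight (fun x : SL(2, ℤ) ⧸ Γ => Gamma0.ST • x) fun x => by
    rw [← mul_smul, ← mul_smul, ← pow_two, ← pow_succ, ST_pow_three, neg_one_smul_coset hneg]

include h2 in
/-- Corestriction is onto the homomorphisms without `3`-torsion values. -/
theorem cores_surjective (hneg : -1 ∈ Γ') (h3 : ∀ a : A, a + a + a = 0 → a = 0) :
    Function.Surjective (h.cores (A := A) R) := by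
  intro φ
  obtain ⟨c₀, hc₀, ⟨hu, hv⟩, rfl⟩ :=
    exists_cocycle_toHom (h.le hneg) φ (apply_neg_one h2 (h.le hneg) φ)
  obtain ⟨a, ha⟩ := exists_half (A := A) h2
  obtain ⟨e, he⟩ := exists_ST_weight (h.le hneg)
  obtain ⟨w, hw⟩ := h.fibreSum_surjective (c₀ ModularGroup.S)
  obtain ⟨w', hw'⟩ := h.fibreSum_surjective (c₀ Gamma0.ST)
  obtain ⟨c, hc, hcS, hcR⟩ := exists_cocycle hneg (isRelPair_proj hneg a (e ∘ h.proj) w w')
  refine ⟨hc.toHom, ?_⟩
  rw [h.cores_toHom hc]
  congr 1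
  refine (h.isCocycle_fibreSum hc).ext_of_eq hc₀ (funext fun x => ?_) (funext fun x => ?_)
  · rw [hcS, projS, h.fibreSum_smul, h.fibreSum_sub, h.fibreSum_comp_smul, hw, hw,
      show c₀ ModularGroup.S (ModularGroup.S • x) = -c₀ ModularGroup.S x from
      eq_neg_of_add_eq_zero_right (hu x), sub_neg_eq_add, ha]
  · obtain ⟨y, rfl⟩ := h.proj_surjective x
    have hsum : ∀ g : SL(2, ℤ),
        ∑ i, w' (g • h.rightMul i y) = c₀ Gamma0.ST (g • h.proj y) := fun g => by
      rw [← hw', ← h.proj_smul, h.fibreSum_eq rfl]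
      simp only [h.rightMul_smul]
    have h1 : ∑ i, w' (h.rightMul i y) = c₀ Gamma0.ST (h.proj y) := by simpa using hsum 1
    have h2' := hsum (Gamma0.ST * Gamma0.ST)
    simp only [mul_smul] at h2'
    rw [hcR, h.fibreSum_eq rfl]
    simp only [projR, Function.comp_apply, h.proj_smul, h.proj_rightMul, Finset.sum_sub_distrib,
      ← Finset.smul_sum, Finset.sum_add_distrib]
    rw [h1, hsum, h2', hv, smul_zero, sub_zero]
    by_cases hfix : Gamma0.ST • h.proj y = h.proj y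
    · have h0 := hv (h.proj y)
      rw [hfix, hfix] at h0
      rw [(he _).1 hfix, zero_smul, h3 _ h0]
    · rw [(he _).2 hfix, one_smul]

end Invertible

end IsCoreps

end Fermat.Agent.RT.GammaH
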