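import Fermat.Agent.Gamma0.Conj
import Fermat.Agent.RT.GammaH.Action

/-!
# The elliptic obstruction is Eisenstein

For `n ∤ M` prime, `T_n φ - (n + 1) • φ` vanishes on the elements of `Γ₀(M)` of order `6` in the
conjugacy class of `Gamma0.ST`, for every `φ : Γ₀(M) → A` with `A` without `2`-torsion.
-/

set_option autoImplicit false

noncomputable section

namespace Fermat.Agent.RT.GammaH

open CongruenceSubgroup Matrix.SpecialLinearGroup
open scoped MatrixGroups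

/-- Sums over the nonfixed points of a map of order dividing `3`. -/
theorem sum_eq_sum_fixed {X A : Type*} [Fintype X] [AddCommGroup A] [DecidableEq X] (σ : X → X)
    (hσ : ∀ x, σ (σ (σ x)) = x) (f : X → A)
    (horb : ∀ x, σ x ≠ x → f x + f (σ x) + f (σ (σ x)) = 0) :
    ∑ x, f x = ∑ x ∈ Finset.univ.filter (fun x => σ x = x), f x := by
  obtain ⟨e, he⟩ := IsCoreps.exists_orbit_weight σ hσ
  set s : Equiv.Perm X := ⟨σ, fun x => σ (σ x), hσ, hσ⟩
  have h0 : ∑ x, e x • (f x + f (σ x) + f (σ (σ x))) = 0 := Finset.sum_eq_zero fun x _ => by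
    by_cases hx : σ x = x
    · have h := (he x).1 hx
      rw [show e x = 0 by omega, zero_smul]
    · rw [horb x hx, smul_zero]
  have h1 : ∀ g : X → A, ∑ x, g x = ∑ x, g (σ x) := fun g => (Equiv.sum_comp s g).symm
  have key : ∑ x, (e x + e (σ x) + e (σ (σ x))) • f x = 0 := by
    refine Eq.trans ?_ h0
    simp only [add_smul, smul_add, Finset.sum_add_distrib]
    have ha : ∑ x, e (σ x) • f x = ∑ x, e x • f (σ (σ x)) := by
      rw [h1 fun x => e x • f (σ (σ x))]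
      simp only [hσ]
    have hb : ∑ x, e (σ (σ x)) • f x = ∑ x, e x • f (σ x) := by
      rw [h1 fun x => e x • f (σ x), h1 fun x => e (σ x) • f (σ (σ x))]
      simp only [hσ]
    rw [ha, hb]
    abel
  rw [← Finset.sum_filter_add_sum_filter_not Finset.univ (fun x => σ x = x) f, add_eq_left]
  refine Eq.trans ?_ key
  rw [Finset.sum_filter]
  refine Finset.sum_congr rfl fun x _ => ?_
  by_cases hx : σ x = x
  · rw [if_neg (not_not.2 hx), (he x).1 hx, zero_smul]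
  · rw [if_pos hx, (he x).2 hx, one_smul]

/-- The lower left entry of `adj H * ST * H`. -/
theorem adj_ST_mul (H : Matrix (Fin 2) (Fin 2) ℤ) :
    (H.adjugate * (Gamma0.ST : Matrix (Fin 2) (Fin 2) ℤ) * H) 1 0 =
      H 0 0 ^ 2 + H 0 0 * H 1 0 + H 1 0 ^ 2 := by
  simp [Matrix.mul_apply, Fin.sum_univ_two, Matrix.adjugate_fin_two, Gamma0.coe_ST]
  ring

theorem adj_ST_mul_pos {H : Matrix (Fin 2) (Fin 2) ℤ} (hH : H.det ≠ 0) :
    0 < (H.adjugate * (Gamma0.ST : Matrix (Fin 2) (Fin 2) ℤ) * H) 1 0 := by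
  rw [adj_ST_mul]
  have h : H 0 0 ≠ 0 ∨ H 1 0 ≠ 0 := by
    by_contra hc
    push Not at hc
    exact hH (by rw [Matrix.det_fin_two, hc.1, hc.2]; ring)
  rcases h with h | h <;>
    nlinarith [sq_pos_iff.2 h, sq_nonneg (H 0 0 + H 1 0), sq_nonneg (H 0 0), sq_nonneg (H 1 0)]

/-- An element of trace `1` with positive lower left entry is a conjugate of `ST`. -/
theorem exists_conj_ST {γ : SL(2, ℤ)} (ht : γ 0 0 + γ 1 1 = 1) (hc : 0 < γ 1 0) :
    ∃ h : SL(2, ℤ), γ = h⁻¹ * Gamma0.ST * h := by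
  obtain ⟨h, n, hn, hh⟩ := Gamma0.hasStdConj_of_trace_sq γ (by rw [Matrix.trace_fin_two, ht]; norm_num)
  have htr : ∀ n' : SL(2, ℤ), h * γ * h⁻¹ = n' → n' 0 0 + n' 1 1 = 1 := fun n' hn' => by
    rw [← Matrix.trace_fin_two, ← hn', Matrix.SpecialLinearGroup.coe_mul, Matrix.trace_mul_comm,
      ← Matrix.SpecialLinearGroup.coe_mul, ← mul_assoc, inv_mul_cancel, one_mul,
      Matrix.trace_fin_two, ht]
  rcases hh with hh | hh <;> rcases hn with rfl | rfl | rfl | ⟨k, rfl⟩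
  · have := htr _ hh
    simp [ModularGroup.coe_S] at this
  · exact ⟨h, by rw [← hh]; group⟩
  · have := htr _ hh
    simp [Gamma0.coe_ST, Matrix.mul_apply, Fin.sum_univ_two] at this
  · have := htr _ hh
    simp [ModularGroup.coe_T_zpow] at this
  · have := htr _ hh
    simp [ModularGroup.coe_S] at this
  · have := htr _ hh
    simp [Gamma0.coe_ST] at this
  · exfalso
    have hγ : γ = h⁻¹ * -(Gamma0.ST * Gamma0.ST) * h := by rw [← hh]; group
    have e : γ 1 0 = -(h 0 0 ^ 2 + h 0 0 * h 1 0 + h 1 0 ^ 2) := by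
      rw [hγ]
      simp [Matrix.mul_apply, Fin.sum_univ_two, Gamma0.coe_ST, SL2_inv_expl h]
      ring
    nlinarith [sq_nonneg (h 0 0 + h 1 0), sq_nonneg (h 0 0), sq_nonneg (h 1 0)]
  · have := htr _ hh
    simp [ModularGroup.coe_T_zpow] at this

variable {M : ℕ} {A : Type} [AddCommGroup A]

/-- Two conjugates of `ST` in `Γ₀(M)` with the same upper left entry mod `M` have the same value. -/
theorem apply_conj_ST_congr (φ : Additive (gammaH M (⊤ : Subgroup (ZMod M)ˣ)) →+ A) {g h : SL(2, ℤ)}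
    (hg : g⁻¹ * Gamma0.ST * g ∈ gammaH M ⊤) (hh : h⁻¹ * Gamma0.ST * h ∈ gammaH M ⊤)
    (heq : ((g⁻¹ * Gamma0.ST * g) 0 0 : ZMod M) = ((h⁻¹ * Gamma0.ST * h) 0 0 : ℤ)) :
    φ (Additive.ofMul ⟨_, hg⟩) = φ (Additive.ofMul ⟨_, hh⟩) := by
  have key : ∀ {x : SL(2, ℤ)}, x⁻¹ * Gamma0.ST * x ∈ gammaH M ⊤ →
      (x 1 0 : ZMod M) = -((x⁻¹ * Gamma0.ST * x) 0 0 : ℤ) * x 0 0 := by
    intro x hx
    have e : ((x * (x⁻¹ * Gamma0.ST * x)) 0 0) = (Gamma0.ST * x) 0 0 := by
      congr 2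
      group
    have e1 := congrArg (Int.cast : ℤ → ZMod M) e
    have e2 : ((Gamma0.ST * x) 0 0 : ℤ) = -x 1 0 := by
      simp [Matrix.mul_apply, Fin.sum_univ_two, Gamma0.coe_ST]
    rw [gamma0_mul_apply_upperLeft x _ (gammaH_le_Gamma0 hx), e2] at e1
    push_cast at e1
    linear_combination e1
  set k := h⁻¹ * g with hk
  have hkm : k ∈ gammaH M (⊤ : Subgroup (ZMod M)ˣ) := by
    rw [gammaH_top, Gamma0_mem, hk,
      show ((h⁻¹ * g) 1 0 : ℤ) = -h 1 0 * g 0 0 + h 0 0 * g 1 0 by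
        simp [Matrix.mul_apply, Fin.sum_univ_two, SL2_inv_expl h]]
    have kg := key hg
    rw [heq] at kg
    push_cast
    linear_combination -(g 0 0 : ZMod M) * key hh + (h 0 0 : ZMod M) * kg
  have e : (⟨_, hh⟩ : gammaH M (⊤ : Subgroup (ZMod M)ˣ)) = ⟨k, hkm⟩ * ⟨_, hg⟩ * (⟨k, hkm⟩)⁻¹ :=
    Subtype.ext (by simp [hk, mul_assoc])
  rw [e, ofMul_mul, ofMul_mul, map_add, map_add, ofMul_inv, map_neg]
  abel

variable (R : Type*) [Semiring R] [Module R A] {n : ℕ} [hn : Fact n.Prime]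

/-- `T_n φ = (n + 1) φ` at the conjugates of `ST` in `Γ₀(M)`. -/
theorem hecke_sub_killsThree (h2 : ∀ a : A, a + a = 0 → a = 0) (hnM : ¬ n ∣ M)
    (φ : Additive (gammaH M (⊤ : Subgroup (ZMod M)ˣ)) →+ A) :
    KillsThree (hecke M ⊤ n R φ - (n + 1) • φ) := by
  classical
  intro g hg
  rw [AddMonoidHom.sub_apply, sub_eq_zero]
  have hneg : -1 ∈ gammaH M (⊤ : Subgroup (ZMod M)ˣ) := neg_one_mem_gammaH (Subgroup.mem_top _)
  set ε : gammaH M (⊤ : Subgroup (ZMod M)ˣ) := ⟨_, hg⟩ with hε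
  set z : GLR := mapGL ℝ (-1 : SL(2, ℤ)) with hz
  have hφz : onImg φ z = 0 := by
    rw [hz, show (-1 : SL(2, ℤ)) = ((⟨-1, hneg⟩ : gammaH M _) : SL(2, ℤ)) from rfl, onImg_mapGL]
    refine h2 _ ?_
    rw [← map_add, ← ofMul_mul]
    convert map_zero φ
    refine congrArg Additive.ofMul (Subtype.ext ?_)
    simp
  have hcube : mapGL ℝ (ε : SL(2, ℤ)) * mapGL ℝ (ε : SL(2, ℤ)) * mapGL ℝ (ε : SL(2, ℤ)) = z := by
    rw [hz, ← map_mul, ← map_mul]
    congr 1
    have := Gamma0.ST_pow_three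
    rw [pow_succ, pow_two] at this
    calc _ = g⁻¹ * (Gamma0.ST * Gamma0.ST * Gamma0.ST) * g := by simp [hε, mul_assoc]
      _ = -1 := by simp [this]
  obtain ⟨σ, hσ⟩ := admissible_hRep (M := M) (K := ⊤) (n := n) ε
  have hzi : ∀ i, hRep M n i * z * (hRep M n i)⁻¹ = z := fun i => by
    have : hRep M n i * z = z * hRep M n i := Units.ext (by simp [hz])
    rw [this, mul_inv_cancel_right]
  have h3 : ∀ i, σ (σ (σ i)) = i := fun i => by
    refine hRep_injective_mod (Γ := gammaH M (⊤ : Subgroup (ZMod M)ˣ)) _ _ ?_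
    have h1 := (hσ.mul hσ).mul hσ |>.2 i
    simp only [Function.comp_apply, hcube] at h1
    have hzmem : hRep M n i * z * (hRep M n i)⁻¹ ∈ img (gammaH M (⊤ : Subgroup (ZMod M)ˣ)) := by
      rw [hzi]
      exact mapGL_mem_img.2 hneg
    simpa [mul_assoc] using mul_mem (inv_mem h1) hzmem
  set f := fun i => onImg φ (hRep M n i * mapGL ℝ (ε : SL(2, ℤ)) * (hRep M n (σ i))⁻¹) with hf
  have horb : ∀ i, f i + f (σ i) + f (σ (σ i)) = 0 := fun i => by
    simp only [hf]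
    rw [← onImg_mul φ (hσ.2 _) (hσ.2 _), ← onImg_mul φ (mul_mem (hσ.2 _) (hσ.2 _)) (hσ.2 _), h3]
    convert hφz using 2
    refine Eq.trans ?_ (hzi i)
    rw [← hcube]
    group
  have hfix : ∀ i, σ i = i → f i = φ (Additive.ofMul ε) := by
    intro i hi
    obtain ⟨c, hc⟩ := exists_of_mem_img (hσ.2 i)
    rw [hi] at hc
    simp only [hf, hi, ← hc, onImg_mapGL]
    obtain ⟨X, hX, hXd, hXc, u, hu, hXa⟩ := hRep_mem_heckeSet (K := (⊥ : Subgroup (ZMod M)ˣ)) i
    rw [Subgroup.mem_bot] at hu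
    subst hu
    have heq : hRep M n i * mapGL ℝ (ε : SL(2, ℤ)) = mapGL ℝ (c : SL(2, ℤ)) * hRep M n i := by
      rw [hc, inv_mul_cancel_right]
    have hmat : X * (ε : SL(2, ℤ)) = ((c : SL(2, ℤ)) : Matrix (Fin 2) (Fin 2) ℤ) * X :=
      (hX.mul (isIntMat_mapGL _)).unique (heq ▸ (isIntMat_mapGL _).mul hX)
    have hn0 : (n : ℤ) ≠ 0 := Int.natCast_ne_zero.2 hn.out.ne_zero
    set H := ((g : SL(2, ℤ)) : Matrix (Fin 2) (Fin 2) ℤ) * X.adjugate with hH
    have hconj : (n : ℤ) • ((c : SL(2, ℤ)) : Matrix (Fin 2) (Fin 2) ℤ) =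
        H.adjugate * (Gamma0.ST : Matrix (Fin 2) (Fin 2) ℤ) * H := by
      have hadj : H.adjugate = X * ((g⁻¹ : SL(2, ℤ)) : Matrix (Fin 2) (Fin 2) ℤ) := by
        rw [hH, Matrix.adjugate_mul_distrib, Matrix.SpecialLinearGroup.coe_inv,
          Matrix.adjugate_adjugate _ (by simp)]
        simp
      rw [hadj, hH]
      simp only [← mul_assoc]
      rw [mul_assoc X, ← Matrix.SpecialLinearGroup.coe_mul, mul_assoc X,
        ← Matrix.SpecialLinearGroup.coe_mul, show g⁻¹ * Gamma0.ST * g = (ε : SL(2, ℤ)) from rfl,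
        hmat, mul_assoc, Matrix.mul_adjugate, hXd, mul_smul_comm, mul_one]
    have hdet : H.det ≠ 0 := by
      rw [hH, Matrix.det_mul, Matrix.det_adjugate, hXd, Matrix.SpecialLinearGroup.det_coe]
      simpa using hn.out.ne_zero
    have hpos : 0 < (c : SL(2, ℤ)) 1 0 := by
      have h := adj_ST_mul_pos hdet
      rw [← hconj] at h
      simp only [Matrix.smul_apply, smul_eq_mul] at h
      exact (mul_pos_iff.1 h).elim And.right fun h => absurd h.1 (by simp)
    have htr : (c : SL(2, ℤ)) 0 0 + (c : SL(2, ℤ)) 1 1 = 1 := by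
      refine mul_left_cancel₀ hn0 ?_
      have e1 := congrArg Matrix.trace hconj
      rw [Matrix.trace_mul_comm, ← mul_assoc, Matrix.mul_adjugate, hH, Matrix.det_mul,
        Matrix.det_adjugate, hXd, Matrix.SpecialLinearGroup.det_coe, Matrix.trace_smul] at e1
      rw [Matrix.trace_fin_two, smul_eq_mul] at e1
      rw [mul_one]
      refine e1.trans ?_
      rw [Matrix.smul_mul, Matrix.one_mul, Matrix.trace_smul]
      simp [Matrix.trace_fin_two, Gamma0.coe_ST]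
    obtain ⟨h, hh⟩ := exists_conj_ST htr hpos
    have hmem : h⁻¹ * Gamma0.ST * h ∈ gammaH M (⊤ : Subgroup (ZMod M)ˣ) := hh ▸ c.2
    rw [show c = ⟨_, hmem⟩ from Subtype.ext hh]
    refine (apply_conj_ST_congr φ hg hmem ?_).symm
    rw [← hh]
    show (((ε : SL(2, ℤ)) 0 0 : ℤ) : ZMod M) = ((c : SL(2, ℤ)) 0 0 : ℤ)
    have hεc := Gamma0_mem.1 (gammaH_le_Gamma0 ε.2)
    clear_value ε
    have e0 := congrArg (fun m : Matrix (Fin 2) (Fin 2) ℤ => (m 0 0 : ZMod M)) hmat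
    simpa [Matrix.mul_apply, Fin.sum_univ_two, hXa, hXc, hεc] using e0
  -- three times the value vanishes
  have h3a : 3 • φ (Additive.ofMul ε) = 0 := by
    rw [← map_nsmul, ← ofMul_pow]
    convert hφz using 1
    rw [← onImg_mapGL, Subgroup.coe_pow, map_pow, pow_succ, pow_two, hcube]
  have hsum := sum_eq_sum_fixed σ h3 f fun i _ => horb i
  have hcard := sum_eq_sum_fixed σ h3 (fun _ => (1 : ZMod 3)) fun i _ => by decide
  rw [Finset.sum_congr rfl fun i hi => hfix i (Finset.mem_filter.1 hi).2, Finset.sum_const] at hsum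
  rw [Finset.sum_const, Finset.sum_const, Finset.card_univ, card_hIdx hnM, nsmul_one, nsmul_one,
    ZMod.natCast_eq_natCast_iff'] at hcard
  show hecke M ⊤ n R φ (Additive.ofMul ε) = ((n + 1) • φ) (Additive.ofMul ε)
  rw [AddMonoidHom.nsmul_apply, hecke, opOf_apply_of_isPerm _ _ _ hσ]
  refine hsum.trans ?_
  rw [← Nat.mod_add_div (n + 1) 3, ← Nat.mod_add_div (Finset.card _) 3, ← hcard, add_nsmul,
    add_nsmul, mul_nsmul, mul_nsmul, h3a, nsmul_zero, nsmul_zero]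

end Fermat.Agent.RT.GammaH
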