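import Mathlib.GroupTheory.PGroup
import Mathlib.LinearAlgebra.FreeModule.PID
import Mathlib.RingTheory.DiscreteValuationRing.Basic
import Mathlib.RingTheory.Filtration
import Mathlib.LinearAlgebra.Basis.VectorSpace
import Mathlib.Algebra.Module.ZMod
import Mathlib.Algebra.Field.ZMod
import Mathlib.RingTheory.Ideal.Quotient.Index
import Mathlib.RingTheory.Nakayama
import Fermat.Agent.RT.GammaH.Localizer

/-!
# Freeness over a group ring from corestriction

`H` carries an action of a finite `p`-group `Δ` through operators congruent to `1` modulo `m`,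
`C : H → H₀` is surjective, `R : H₀ → H` satisfies `R ∘ C = ∑ δ`, is injective modulo the
uniformiser up to an operator outside `m`, and its image contains, modulo the uniformiser, the
elements of the localisation fixed modulo the uniformiser. Then the localisation of `H` is free
over `O[Δ]` of the rank of the localisation of `H₀`: the socle bounds the residual dimension.
-/

set_option autoImplicit false

noncomputable section

namespace Fermat.Agent.RT.GammaH

open IsLocalRing

variable {O : Type} [CommRing O] [IsDomain O] [IsDiscreteValuationRing O] [Finite (ResidueField O)]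
  {p : ℕ} [Fact p.Prime] [CharP (ResidueField O) p]
  {𝔸 : Type} [CommRing 𝔸] [Algebra O 𝔸] {Δ : Type} [CommGroup Δ]
  {H H₀ : Type} [AddCommGroup H] [Module 𝔸 H] [Module O H] [IsScalarTower O 𝔸 H] [Module.Finite O H]
  [AddCommGroup H₀] [Module 𝔸 H₀] [Module O H₀] [IsScalarTower O 𝔸 H₀] [Module.Finite O H₀]

theorem exists_uniformizer_smul {ϖ : O} (hϖ : Irreducible ϖ) {N : Submodule O H} {x : H}
    (hx : x ∈ maximalIdeal O • N) : ∃ y ∈ N, ϖ • y = x := by
  rw [hϖ.maximalIdeal_eq, Submodule.ideal_span_singleton_smul] at hx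
  exact (Submodule.mem_smul_pointwise_iff_exists x ϖ N).1 hx

/-- An injective homomorphism of elementary `p`-groups has a left inverse. -/
theorem exists_addLeftInverse {V W : Type} [AddCommGroup V] [AddCommGroup W] (p : ℕ) [Fact p.Prime]
    (hV : ∀ v : V, p • v = 0) (hW : ∀ v : W, p • v = 0) {j : V →+ W} (hj : Function.Injective j) :
    ∃ π : W →+ V, ∀ v, π (j v) = v := by
  let : Module (ZMod p) V := AddCommGroup.zmodModule hV
  let : Module (ZMod p) W := AddCommGroup.zmodModule hW
  obtain ⟨π, hπ⟩ := LinearMap.exists_leftInverse_of_injective (K := ZMod p)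
    (j.toZModLinearMap p) (LinearMap.ker_eq_bot.2 hj)
  exact ⟨π.toAddMonoidHom, fun v => LinearMap.congr_fun hπ v⟩

variable [Module.Free O H] [Module.Free O H₀] [Fintype Δ]

theorem exists_freeBasis (hΔ : IsPGroup p Δ) {m : Ideal 𝔸} {e : 𝔸}
    (heH : IsLocalizer m H e) (heH₀ : IsLocalizer m H₀ e)
    (δ : Δ → 𝔸) (hone : ∀ x : H, δ 1 • x = x)
    (hmul : ∀ q q' (x : H), δ (q * q') • x = δ q • δ q' • x)
    (C : H →ₗ[𝔸] H₀) (hC : Function.Surjective C)
    (R : H₀ →ₗ[𝔸] H) (hRC : ∀ x, R (C x) = ∑ q, δ q • x)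
    {ϖ : O} (hϖ : Irreducible ϖ) {t : 𝔸} (ht : t ∉ m)
    (hres : ∀ (x : H₀) (y : H), R x = ϖ • y → ∃ z : H₀, t • x = ϖ • z)
    (hsoc : ∀ x : H, e • x = x → (∀ q, ∃ y : H, δ q • x - x = ϖ • y) →
      ∃ (x₀ : H₀) (y : H), x = R x₀ + ϖ • y) :
    ∃ b : Fin (Module.finrank O (localPart O e H₀)) → localPart O e H,
      Function.Bijective fun c : Fin (Module.finrank O (localPart O e H₀)) × Δ →₀ O =>
        c.sum fun iq x => x • localAct O e H (δ iq.2) (b iq.1) := by
  classical
  set M := localPart O e H with hM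
  set M₀ := localPart O e H₀ with hM₀
  set d := Module.finrank O M₀
  let w : Module.Basis (Fin d) O M₀ := Module.finBasis O M₀
  choose pre hpre using fun i => hC (w i : H₀)
  let b : Fin d → M := fun i => ⟨e • pre i, heH.idem _⟩
  have hCb : ∀ i, C (b i : H) = w i := fun i => by
    show C (e • pre i) = _
    rw [map_smul, hpre]
    exact (w i).2
  refine ⟨b, ?_⟩
  let g : Fin d × Δ → H := fun iq => δ iq.2 • (b iq.1 : H)
  let F := Finsupp.linearCombination O g
  have hFM : ∀ c, F c ∈ M := fun c => by
    rw [show F c = _ from Finsupp.linearCombination_apply O c]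
    exact Submodule.sum_mem _ fun iq _ =>
      Submodule.smul_mem _ _ (smul_mem_localPart _ (b iq.1).2)
  have hval : ∀ c : Fin d × Δ →₀ O,
      ((c.sum fun iq x => x • localAct O e H (δ iq.2) (b iq.1) : M) : H) = F c := fun c => by
    rw [show F c = _ from Finsupp.linearCombination_apply O c, Finsupp.sum, Finsupp.sum,
      Submodule.coe_sum]
    rfl
  -- translations
  have htrans : ∀ (r : Δ) (c : Fin d × Δ →₀ O),
      F (Finsupp.mapDomain (fun iq => (iq.1, r * iq.2)) c) = δ r • F c := fun r c => by
    rw [show F _ = _ from Finsupp.linearCombination_mapDomain O _ c,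
      show F c = _ from Finsupp.linearCombination_apply O c,
      Finsupp.linearCombination_apply, Finsupp.sum, Finsupp.sum, Finset.smul_sum]
    refine Finset.sum_congr rfl fun iq _ => ?_
    show c iq • g (iq.1, r * iq.2) = _
    rw [show g (iq.1, r * iq.2) = δ r • g iq from hmul _ _ _, smul_comm]
  -- the socle
  have hsmulmem : ∀ (a : 𝔸) {x : H}, x ∈ maximalIdeal O • M → a • x ∈ maximalIdeal O • M := by
    intro a x hx
    induction hx using Submodule.smul_induction_on' with
    | smul r hr y hy =>
      rw [smul_comm]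
      exact Submodule.smul_mem_smul hr (smul_mem_localPart _ hy)
    | add y _ z _ hy hz =>
      rw [smul_add]
      exact add_mem hy hz
  set soc : (Fin d → O) → H := fun a => ∑ i, a i • R (w i : H₀) with hsocdef
  have hsoc_eq : ∀ a, soc a = R (∑ i, a i • (w i : H₀)) := fun a => by
    simp only [hsocdef, map_sum, LinearMap.map_smul_of_tower]
  have hsocM : ∀ a, soc a ∈ M := fun a => sum_mem fun i _ => Submodule.smul_mem _ _ (by
    rw [mem_localPart, ← map_smul, (w i).2])
  have hsoc0 : ∀ a : Fin d → O, soc a ∈ maximalIdeal O • M → ∀ i, a i ∈ maximalIdeal O := by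
    intro a ha i
    obtain ⟨y, -, hy⟩ := exists_uniformizer_smul hϖ ha
    set w₀ : H₀ := ∑ i, a i • (w i : H₀) with hw₀
    obtain ⟨z, hz⟩ := hres w₀ y (by rw [← hsoc_eq, hy])
    obtain ⟨t', ht'⟩ := heH₀.invert t ht
    have hw₀M : e • w₀ = w₀ := by
      show w₀ ∈ M₀
      exact sum_mem fun i _ => Submodule.smul_mem _ _ (w i).2
    have hw₀eq : w₀ = ϖ • ((t' * e) • z) := by
      rw [smul_comm, ← hz, smul_smul, show t' * e * t = t * t' * e by ring, ht', hw₀M]
    have hzM : (t' * e) • z ∈ M₀ := by
      rw [mem_localPart, mul_smul, smul_comm e t', heH₀.idem]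
    set zz : M₀ := ⟨_, hzM⟩
    have hrepr : (∑ i, a i • w i : M₀) = ϖ • zz := Subtype.ext (by
      rw [Submodule.coe_sum]
      exact hw₀eq)
    have := congrArg (fun m : M₀ => w.repr m i) hrepr
    simp only [map_smul, Finsupp.smul_apply, w.repr_sum_self, smul_eq_mul] at this
    rw [this]
    exact Ideal.mul_mem_right _ _ hϖ.not_isUnit
  -- injectivity modulo the uniformiser
  have hmod : ∀ c, F c ∈ maximalIdeal O • M → ∀ iq, c iq ∈ maximalIdeal O := by
    set W₀ : AddSubgroup (Fin d × Δ → ResidueField O) :=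
      { carrier := {u | ∃ c, F c ∈ maximalIdeal O • M ∧ ∀ iq, residue O (c iq) = u iq}
        zero_mem' := ⟨0, by rw [map_zero]; exact zero_mem _, fun iq => by simp⟩
        add_mem' := by
          rintro u u' ⟨c, hc, hu⟩ ⟨c', hc', hu'⟩
          exact ⟨c + c', by rw [map_add]; exact add_mem hc hc', fun iq => by simp [hu, hu']⟩
        neg_mem' := by
          rintro u ⟨c, hc, hu⟩
          exact ⟨-c, by rw [map_neg]; exact neg_mem hc, fun iq => by simp [hu]⟩ }
    suffices hW : W₀ = ⊥ by
      intro c hc iq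
      have h0 : (fun iq => residue O (c iq)) ∈ W₀ := ⟨c, hc, fun _ => rfl⟩
      rw [hW, AddSubgroup.mem_bot] at h0
      exact (residue_eq_zero_iff _).1 (congrFun h0 iq)
    by_contra hne
    have hsm : ∀ (r : Δ) (u : Fin d × Δ → ResidueField O), u ∈ W₀ →
        (fun iq => u (iq.1, r⁻¹ * iq.2)) ∈ W₀ := by
      rintro r u ⟨c, hc, hu⟩
      refine ⟨Finsupp.mapDomain (fun iq => (iq.1, r * iq.2)) c, ?_, fun iq => ?_⟩
      · rw [htrans]
        generalize F c = y₀ at hc ⊢
        induction hc using Submodule.smul_induction_on' with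
        | smul a ha y hy =>
          rw [smul_comm]
          exact Submodule.smul_mem_smul ha (smul_mem_localPart _ hy)
        | add y _ z _ hy hz =>
          rw [smul_add]
          exact add_mem hy hz
      · show _ = u (iq.1, r⁻¹ * iq.2)
        rw [← hu]
        congr 1
        conv_lhs => rw [show iq = (fun iq : Fin d × Δ => (iq.1, r * iq.2)) (iq.1, r⁻¹ * iq.2) by simp]
        exact Finsupp.mapDomain_apply (fun a a' h => by simpa [Prod.ext_iff] using h) _ _
    letI : MulAction Δ W₀ :=
      { smul := fun r u => ⟨fun iq => u.1 (iq.1, r⁻¹ * iq.2), hsm r u.1 u.2⟩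
        one_smul := fun u => Subtype.ext (funext fun iq => by
          show u.1 (iq.1, (1 : Δ)⁻¹ * iq.2) = u.1 iq
          simp)
        mul_smul := fun r r' u => Subtype.ext (funext fun iq => by
          show u.1 (iq.1, (r * r')⁻¹ * iq.2) = u.1 (iq.1, r'⁻¹ * (r⁻¹ * iq.2))
          rw [mul_inv_rev, mul_assoc]) }
    obtain ⟨u₀, hu₀, hu₀ne⟩ := (AddSubgroup.bot_or_exists_ne_zero W₀).resolve_left hne
    have hp : p ∣ Nat.card W₀ := by
      have hord : p • (⟨u₀, hu₀⟩ : W₀) = 0 := Subtype.ext (funext fun iq => by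
        show p • u₀ iq = 0
        rw [← Nat.cast_smul_eq_nsmul (ResidueField O), CharP.cast_eq_zero, zero_smul])
      have h1 : addOrderOf (⟨u₀, hu₀⟩ : W₀) = p :=
        addOrderOf_eq_prime hord fun h => hu₀ne (congrArg Subtype.val h)
      exact h1 ▸ addOrderOf_dvd_natCard (⟨u₀, hu₀⟩ : W₀)
    obtain ⟨u, hu, hu0⟩ := hΔ.exists_fixed_point_of_prime_dvd_card_of_fixed_point W₀ hp
      (a := 0) (fun r => Subtype.ext (funext fun _ => rfl))
    have hfix : ∀ i q, u.1 (i, q) = u.1 (i, 1) := fun i q => by
      have := congrFun (congrArg Subtype.val (hu q)) (i, q)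
      change u.1 (i, q⁻¹ * q) = u.1 (i, q) at this
      rw [inv_mul_cancel] at this
      exact this.symm
    obtain ⟨c, hc, hcu⟩ := u.2
    set a : Fin d → O := fun i => c (i, 1)
    set c' : Fin d × Δ →₀ O := Finsupp.equivFunOnFinite.symm fun iq => a iq.1
    have hdiff : F (c - c') ∈ maximalIdeal O • M := by
      rw [show F _ = _ from Finsupp.linearCombination_apply O _]
      refine Submodule.sum_mem _ fun iq _ =>
        Submodule.smul_mem_smul ?_ (smul_mem_localPart _ (b iq.1).2)
      rw [← residue_eq_zero_iff]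
      simp [c', a, hcu, hfix iq.1 iq.2]
    have hc' : F c' ∈ maximalIdeal O • M := by
      have := sub_mem hc hdiff
      rwa [map_sub, sub_sub_cancel] at this
    have hc'soc : F c' = soc a := by
      rw [hsoc_eq, show (∑ i, a i • (w i : H₀)) = C (∑ i, a i • (b i : H)) by
          simp [map_sum, LinearMap.map_smul_of_tower, hCb],
        hRC, show F c' = _ from Finsupp.linearCombination_apply O _,
        Finsupp.sum_fintype c' (fun i a => a • g i) (fun _ => zero_smul O _),
        Fintype.sum_prod_type_right]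
      refine Finset.sum_congr rfl fun q _ => ?_
      rw [Finset.smul_sum]
      exact Finset.sum_congr rfl fun i _ => (smul_comm _ _ _).symm
    refine hu0 (Subtype.ext (funext fun iq => ?_))
    show (0 : ResidueField O) = u.1 iq
    rw [show u.1 iq = u.1 (iq.1, 1) from hfix iq.1 iq.2, ← hcu]
    exact ((residue_eq_zero_iff _).2 (hsoc0 a (hc'soc ▸ hc') iq.1)).symm
  -- the residual module embeds in the functions on `Δ` with values in its socle
  let N : Submodule O M := maximalIdeal O • ⊤
  let mk : M →ₗ[O] M ⧸ N := N.mkQ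
  have hNmap : N.map M.subtype = maximalIdeal O • M := by
    rw [Submodule.map_smul'', Submodule.map_subtype_top]
  have hmk : ∀ x : M, mk x = 0 ↔ (x : H) ∈ maximalIdeal O • M := fun x => by
    rw [← hNmap]
    refine (Submodule.Quotient.mk_eq_zero N).trans ⟨fun h => Submodule.mem_map_of_mem h, ?_⟩
    rintro ⟨z, hz, hzx⟩
    exact Subtype.ext hzx ▸ hz
  have : Finite (O ⧸ maximalIdeal O) := inferInstanceAs (Finite (ResidueField O))
  have : Finite (M ⧸ N) := by
    have : Finite (M ⧸ (⊤ : Submodule O M)) := Finite.of_subsingleton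
    exact Submodule.finite_quotient_smul _ Module.Finite.fg_top
  have hp0 : (p : O) ∈ maximalIdeal O := by
    rw [← residue_eq_zero_iff, map_natCast, CharP.cast_eq_zero]
  have hWp : ∀ u : M ⧸ N, p • u = 0 := fun u => by
    obtain ⟨x, rfl⟩ := N.mkQ_surjective u
    rw [← map_nsmul, ← Nat.cast_smul_eq_nsmul O]
    exact (hmk _).2 (Submodule.smul_mem_smul hp0 x.2)
  set lift : (Fin d → ResidueField O) → Fin d → O :=
    fun v i => Function.surjInv residue_surjective (v i) with hlift
  let jfun : (Fin d → ResidueField O) → M ⧸ N := fun v => mk ⟨soc (lift v), hsocM _⟩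
  have hjwd : ∀ a : Fin d → O, mk ⟨soc a, hsocM a⟩ = jfun fun i => residue O (a i) := fun a => by
    rw [← sub_eq_zero, ← map_sub, hmk]
    show soc a - soc (lift fun i => residue O (a i)) ∈ _
    simp only [hsocdef, ← Finset.sum_sub_distrib, ← sub_smul]
    refine sum_mem fun i _ => Submodule.smul_mem_smul ?_ (by rw [mem_localPart, ← map_smul, (w i).2])
    rw [← residue_eq_zero_iff, map_sub, hlift, Function.surjInv_eq residue_surjective, sub_self]
  let j : (Fin d → ResidueField O) →+ M ⧸ N := AddMonoidHom.mk' jfun fun v v' => by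
    show jfun (v + v') = mk ⟨soc (lift v), hsocM _⟩ + mk ⟨soc (lift v'), hsocM _⟩
    rw [← map_add, show (⟨soc (lift v), hsocM _⟩ : M) + ⟨soc (lift v'), hsocM _⟩ =
      ⟨soc (lift v + lift v'), hsocM _⟩ from Subtype.ext (by
        simp [hsocdef, add_smul, Finset.sum_add_distrib]), hjwd]
    congr 1
    funext i
    simp [hlift, Function.surjInv_eq residue_surjective]
  have hjinj : Function.Injective j := (injective_iff_map_eq_zero j).2 fun v hv => by
    funext i
    have h := (residue_eq_zero_iff _).2 (hsoc0 (lift v) ((hmk _).1 hv) i)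
    rwa [hlift, Function.surjInv_eq residue_surjective] at h
  obtain ⟨π, hπ⟩ := exists_addLeftInverse p (fun v => funext fun i => by
    show p • v i = 0
    rw [← Nat.cast_smul_eq_nsmul (ResidueField O), CharP.cast_eq_zero, zero_smul]) hWp hjinj
  let act : Δ → (M ⧸ N) →+ (M ⧸ N) := fun q =>
    (N.mapQ N (localAct O e H (δ q)) (Submodule.smul_top_le_comap_smul_top _ _)).toAddMonoidHom
  have hact : ∀ q (x : M), act q (mk x) = mk ⟨δ q • (x : H), smul_mem_localPart _ x.2⟩ :=
    fun q x => rfl
  have hact_one : ∀ u, act 1 u = u := fun u => by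
    obtain ⟨x, rfl⟩ := N.mkQ_surjective u
    exact congrArg mk (Subtype.ext (hone _))
  have hact_mul : ∀ q q' u, act (q * q') u = act q (act q' u) := fun q q' u => by
    obtain ⟨x, rfl⟩ := N.mkQ_surjective u
    exact congrArg mk (Subtype.ext (hmul q q' _))
  let Φ : (M ⧸ N) →+ (Fin d × Δ → ResidueField O) :=
    AddMonoidHom.mk' (fun u iq => π (act iq.2 u) iq.1) fun u u' => funext fun iq => by simp
  have hΦ : Function.Injective Φ := by
    rw [← AddMonoidHom.ker_eq_bot_iff]
    by_contra hne
    letI : MulAction Δ Φ.ker :=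
      { smul := fun r u => ⟨act r u.1, funext fun iq => by
          show π (act iq.2 (act r u.1)) iq.1 = 0
          rw [← hact_mul]
          exact congrFun u.2 (iq.1, iq.2 * r)⟩
        one_smul := fun u => Subtype.ext (hact_one _)
        mul_smul := fun r r' u => Subtype.ext (hact_mul r r' _) }
    obtain ⟨u₀, hu₀, hu₀ne⟩ := (AddSubgroup.bot_or_exists_ne_zero Φ.ker).resolve_left hne
    have hp : p ∣ Nat.card Φ.ker := by
      have h1 : addOrderOf (⟨u₀, hu₀⟩ : Φ.ker) = p :=
        addOrderOf_eq_prime (Subtype.ext (hWp u₀)) fun h => hu₀ne (congrArg Subtype.val h)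
      exact h1 ▸ addOrderOf_dvd_natCard (⟨u₀, hu₀⟩ : Φ.ker)
    obtain ⟨u, hu, hu0⟩ := hΔ.exists_fixed_point_of_prime_dvd_card_of_fixed_point Φ.ker hp
      (a := 0) (fun r => Subtype.ext (map_zero (act r)))
    obtain ⟨x, hx⟩ := N.mkQ_surjective u.1
    obtain ⟨x₀, y, hxy⟩ := hsoc x x.2 fun q => by
      have h := congrArg Subtype.val (hu q)
      change act q u.1 = u.1 at h
      rw [← hx] at h
      obtain ⟨z, -, hz⟩ := exists_uniformizer_smul hϖ
        ((hmk _).1 ((map_sub mk _ _).trans (sub_eq_zero.2 h)))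
      exact ⟨z, hz.symm⟩
    set x₁ : M₀ := ⟨e • x₀, heH₀.idem x₀⟩
    set a : Fin d → O := fun i => w.repr x₁ i
    have hsum : ∑ i, a i • (w i : H₀) = e • x₀ := by
      have := congrArg Subtype.val (w.sum_repr x₁)
      rwa [Submodule.coe_sum] at this
    have hju : u.1 = j fun i => residue O (a i) := by
      refine Eq.trans ?_ (hjwd a)
      rw [← hx, ← sub_eq_zero]
      show mk x - mk _ = 0
      rw [← map_sub, hmk]
      show (x : H) - soc a ∈ _
      rw [hsoc_eq, hsum, map_smul]
      have e1 : e • ((x : H) - R x₀) = ϖ • (e • y) := by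
        rw [hxy, add_sub_cancel_left, smul_comm]
      rw [smul_sub, show e • (x : H) = x from x.2] at e1
      rw [e1]
      exact Submodule.smul_mem_smul hϖ.not_isUnit (heH.idem y)
    have hzero : π u.1 = 0 := funext fun i => by
      have := congrFun u.2 (i, 1)
      change π (act 1 u.1) i = 0 at this
      rwa [hact_one] at this
    have hv : (fun i => residue O (a i)) = 0 := by
      have := hπ fun i => residue O (a i)
      rw [← hju, hzero] at this
      exact this.symm
    exact hu0 (Subtype.ext (by rw [hju, hv, map_zero]; rfl))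
  let G : (Fin d × Δ → ResidueField O) → M ⧸ N := fun v =>
    mk ⟨F (Finsupp.equivFunOnFinite.symm fun iq => Function.surjInv residue_surjective (v iq)),
      hFM _⟩
  have hG : Function.Injective G := fun v v' h => funext fun iq => by
    have h' := (hmk _).1 ((map_sub mk _ _).trans (sub_eq_zero.2 h))
    change F _ - F _ ∈ _ at h'
    rw [← map_sub] at h'
    have := (residue_eq_zero_iff _).2 (hmod _ h' iq)
    simpa [Function.surjInv_eq residue_surjective, sub_eq_zero] using this
  have hspan : M ≤ LinearMap.range F := by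
    refine Submodule.le_of_le_smul_of_le_jacobson_bot (I := maximalIdeal O)
      (IsNoetherian.noetherian M) (maximalIdeal_le_jacobson _) fun x hx => ?_
    obtain ⟨v, hv⟩ := (Finite.injective_iff_surjective.1 (hΦ.comp hG)) (Φ (mk ⟨x, hx⟩))
    have h' := (hmk _).1 ((map_sub mk _ _).trans (sub_eq_zero.2 (hΦ hv).symm))
    exact Submodule.mem_sup.2 ⟨_, LinearMap.mem_range_self F _, _, h', add_sub_cancel _ _⟩
  have hinj : ∀ c, F c = 0 → c = 0 := by
    have key : ∀ j : ℕ, ∀ c, F c = 0 → ∀ iq, c iq ∈ maximalIdeal O ^ j := by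
      intro j
      induction j with
      | zero => intro c _ iq; simp
      | succ j ih =>
        intro c hc iq
        have h1 := hmod c (by rw [hc]; exact zero_mem _)
        simp only [hϖ.maximalIdeal_eq, Ideal.mem_span_singleton] at h1
        choose c₁ hc₁ using h1
        set c₂ := Finsupp.equivFunOnFinite.symm c₁
        have hcc : c = ϖ • c₂ := Finsupp.ext fun iq => by simp [c₂, hc₁ iq]
        have h0 : F c₂ = 0 := by
          rw [hcc, map_smul] at hc
          exact (smul_eq_zero.1 hc).resolve_left hϖ.ne_zero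
        rw [hcc, pow_succ', Finsupp.smul_apply, smul_eq_mul]
        exact Ideal.mul_mem_mul hϖ.not_isUnit (ih c₂ h0 iq)
    intro c hc
    refine Finsupp.ext fun iq => ?_
    have h := (Submodule.mem_iInf _).2 fun j => key j c hc iq
    rwa [Ideal.iInf_pow_eq_bot_of_isLocalRing _ (maximalIdeal.isMaximal O).ne_top] at h
  refine ⟨fun c c' h => ?_, fun x => ?_⟩
  · have h' := congrArg Subtype.val h
    simp only [hval] at h'
    exact sub_eq_zero.1 (hinj _ (by rw [map_sub, h', sub_self]))
  · obtain ⟨c, hc⟩ := hspan x.2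
    exact ⟨c, Subtype.ext ((hval c).trans hc)⟩

end Fermat.Agent.RT.GammaH
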