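import Fermat.Agent.RT.GammaH.LevelOps

/-!
# Diamond invariant homomorphisms come from `Γ₀(M)` up to an Eisenstein operator

For `n ∤ M` prime and `φ : Γ_H → A` fixed by the diamond operators, `T_n φ - (n + 1) • φ` is the
restriction of a homomorphism on `Γ₀(M)`.
-/

set_option autoImplicit false

noncomputable section

namespace Fermat.Agent.RT.GammaH

open CongruenceSubgroup Matrix.SpecialLinearGroup
open scoped MatrixGroups

variable {M : ℕ} {K : Subgroup (ZMod M)ˣ} {A : Type*} [AddCommGroup A] (R : Type*) [Semiring R]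
  [Module R A] {n : ℕ} [hn : Fact n.Prime]

/-- A diamond invariant homomorphism is invariant under conjugation by `Γ₀(M)`. -/
theorem apply_conj_of_diamond_eq {φ : Additive (gammaH M K) →+ A}
    (hinv : ∀ u, diamond M K R u φ = φ) {σ : SL(2, ℤ)} (hσ : σ ∈ Gamma0 M) (b : gammaH M K) :
    φ (Additive.ofMul ⟨_, gammaH_conj hσ b.2⟩) = φ (Additive.ofMul b) := by
  obtain ⟨i, hi⟩ := (isCoreps_deltaRep (K := K)).surj σ (by rwa [gammaH_top])
  set a : gammaH M K := ⟨_, hi⟩
  have e : (⟨_, gammaH_conj hσ b.2⟩ : gammaH M K) =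
      a * ⟨_, gammaH_conj (deltaRep_mem i) b.2⟩ * a⁻¹ :=
    Subtype.ext (by simp [a, mul_assoc])
  have h := DFunLike.congr_fun (hinv i.out) (Additive.ofMul b)
  rw [diamond_apply] at h
  rw [e, ofMul_mul, ofMul_mul, map_add, map_add, ofMul_inv, map_neg, add_comm, neg_add_cancel_left]
  exact h

/-- **The defect of extending an invariant homomorphism is Eisenstein.** -/
theorem exists_resTop_eq_hecke_sub {φ : Additive (gammaH M K) →+ A}
    (hinv : ∀ u, diamond M K R u φ = φ) (hnM : ¬ n ∣ M) :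
    ∃ ψ : Additive (gammaH M (⊤ : Subgroup (ZMod M)ˣ)) →+ A,
      resTop R K ψ = hecke M K n R φ - (n + 1) • φ := by
  classical
  set G := gammaH M (⊤ : Subgroup (ZMod M)ˣ)
  -- the extension
  choose idx hidx using fun g : G => (isCoreps_deltaRep (K := K)).surj (g : SL(2, ℤ)) g.2
  set F : G → A := fun g => φ (Additive.ofMul ⟨_, hidx g⟩) with hF
  have hleft : ∀ (a : gammaH M K) (g : G),
      F (Subgroup.inclusion le_top_gammaH a * g) = φ (Additive.ofMul a) + F g := by
    intro a g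
    have hi : idx (Subgroup.inclusion le_top_gammaH a * g) = idx g := by
      refine isCoreps_deltaRep.inj _ _ ?_
      have := mul_mem (inv_mem (hidx (Subgroup.inclusion le_top_gammaH a * g))) (mul_mem a.2 (hidx g))
      simpa [mul_assoc] using this
    simp only [hF, ← map_add, ← ofMul_mul]
    exact congrArg φ (congrArg Additive.ofMul (Subtype.ext (by simp [hi, mul_assoc])))
  have hF1 : ∀ a : gammaH M K, F (Subgroup.inclusion le_top_gammaH a) = φ (Additive.ofMul a) + F 1 :=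
    fun a => by rw [← hleft a 1, mul_one]
  have hz : ∀ g g' h h' : G, (g' : SL(2, ℤ)) * (g : SL(2, ℤ))⁻¹ ∈ gammaH M K →
      (h' : SL(2, ℤ)) * (h : SL(2, ℤ))⁻¹ ∈ gammaH M K →
      F (g' * h') - F g' - F h' = F (g * h) - F g - F h := by
    intro g g' h h' hg hh
    set a : gammaH M K := ⟨_, hg⟩
    set b : gammaH M K := ⟨_, hh⟩
    set b' : gammaH M K := ⟨_, gammaH_conj (gammaH_le_Gamma0 g.2) b.2⟩
    have e1 : g' = Subgroup.inclusion le_top_gammaH a * g := Subtype.ext (by simp [a])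
    have e2 : h' = Subgroup.inclusion le_top_gammaH b * h := Subtype.ext (by simp [b])
    have e3 : g' * h' = Subgroup.inclusion le_top_gammaH (a * b') * (g * h) :=
      Subtype.ext (by simp [a, b, b', mul_assoc])
    conv_lhs => rw [e3, hleft, e1, hleft, e2, hleft, ofMul_mul, map_add]
    rw [show φ (Additive.ofMul b') = φ (Additive.ofMul b) from
      apply_conj_of_diamond_eq R hinv (gammaH_le_Gamma0 g.2) b]
    abel
  -- permutations and their values
  choose τ hτ using fun g : G => admissible_hRep (M := M) (K := ⊤) (n := n) g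
  choose c hc using fun (g : G) (i : HIdx M n) => exists_of_mem_img ((hτ g).2 i)
  have hcg : ∀ g i, (c g i : SL(2, ℤ)) * (g : SL(2, ℤ))⁻¹ ∈ gammaH M K := by
    intro g i
    obtain ⟨X, hX, -, hXc, x, hx, hXa⟩ := hRep_mem_heckeSet (K := (⊥ : Subgroup (ZMod M)ˣ)) i
    obtain ⟨Y, hY, -, hYc, y, hy, hYa⟩ :=
      hRep_mem_heckeSet (K := (⊥ : Subgroup (ZMod M)ˣ)) (τ g i)
    rw [Subgroup.mem_bot] at hx hy
    subst hx hy
    have heq : hRep M n i * mapGL ℝ (g : SL(2, ℤ)) =
        mapGL ℝ (c g i : SL(2, ℤ)) * hRep M n (τ g i) := by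
      rw [hc, inv_mul_cancel_right]
    have e := congrArg (fun m : Matrix (Fin 2) (Fin 2) ℤ => (m 0 0 : ZMod M))
      ((hX.mul (isIntMat_mapGL _)).unique (heq ▸ (isIntMat_mapGL _).mul hY))
    have hgc := g.2.1
    simp [Matrix.mul_apply, Fin.sum_univ_two, hXa, hYa, hYc, hgc] at e
    exact gamma0_mul_inv_mem (gammaH_le_Gamma0 (c g i).2) (gammaH_le_Gamma0 g.2) (one_mem K)
      (by rw [Units.val_one, one_mul, e])
  have hcomp : ∀ g h i, τ (g * h) i = τ h (τ g i) ∧ c (g * h) i = c g i * c h (τ g i) := by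
    intro g h i
    have h2 : hRep M n i * mapGL ℝ ((g * h : G) : SL(2, ℤ)) * (hRep M n (τ h (τ g i)))⁻¹ =
        mapGL ℝ ((c g i * c h (τ g i) : G) : SL(2, ℤ)) := by
      rw [Subgroup.coe_mul, Subgroup.coe_mul, map_mul, map_mul, hc, hc]
      group
    have h1 := (hτ (g * h)).2 i
    have hi : τ (g * h) i = τ h (τ g i) := by
      refine hRep_injective_mod (Γ := G) _ _ ?_
      have hm : (mapGL ℝ ((c g i * c h (τ g i) : G) : SL(2, ℤ)) : GLR) ∈ img G :=
        mapGL_mem_img.2 (Subtype.prop _)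
      rw [← h2] at hm
      simpa [mul_assoc] using mul_mem (inv_mem h1) hm
    refine ⟨hi, Subtype.ext (Periods.mapGL_int_injective ?_)⟩
    rw [hc, hi, h2]
  set Ψ : G → A := fun g => ∑ i, F (c g i) - (n + 1) • F g with hΨ
  have hΨmul : ∀ g h, Ψ (g * h) = Ψ g + Ψ h := by
    intro g h
    have e : ∀ i, F (c (g * h) i) = F (c g i) + F (c h (τ g i)) + (F (g * h) - F g - F h) := by
      intro i
      rw [(hcomp g h i).2, ← hz g (c g i) h (c h (τ g i)) (hcg _ _) (hcg _ _)]
      abel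
    simp only [hΨ, e, Finset.sum_add_distrib, Finset.sum_const, Finset.card_univ, card_hIdx hnM,
      (hτ g).1.sum_comp fun i => F (c h i), smul_sub]
    abel
  refine ⟨AddMonoidHom.mk' (fun x => Ψ (Additive.toMul x))
    fun x y => by rw [toMul_add, hΨmul], AddMonoidHom.ext fun x => ?_⟩
  obtain ⟨γ, rfl⟩ := Additive.ofMul.surjective x
  rw [resTop, res_apply, AddMonoidHom.sub_apply, AddMonoidHom.nsmul_apply]
  show Ψ (Subgroup.inclusion le_top_gammaH γ) = _
  set g := Subgroup.inclusion le_top_gammaH γ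
  have hmem : ∀ i, (c g i : SL(2, ℤ)) ∈ gammaH M K := fun i => by
    simpa [g] using mul_mem (hcg g i) γ.2
  have hperm : IsPerm (gammaH M K) (hRep M n) (mapGL ℝ (γ : SL(2, ℤ))) (τ g) :=
    ⟨(hτ g).1, fun i => hc g i ▸ mapGL_mem_img.2 (hmem i)⟩
  rw [hecke, opOf_apply_of_isPerm _ _ _ hperm]
  have e : ∀ i, F (c g i) =
      onImg φ (hRep M n i * mapGL ℝ (γ : SL(2, ℤ)) * (hRep M n (τ g i))⁻¹) + F 1 := fun i => by
    have h' := onImg_mapGL φ ⟨_, hmem i⟩
    rw [show (mapGL ℝ (γ : SL(2, ℤ)) : GLR) = mapGL ℝ (g : SL(2, ℤ)) from rfl, ← hc g i, h',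
      ← hF1 ⟨_, hmem i⟩]
    rfl
  have hFg : F g = φ (Additive.ofMul γ) + F 1 := hF1 γ
  simp only [hΨ, e, hFg, Finset.sum_add_distrib, Finset.sum_const, Finset.card_univ,
    card_hIdx hnM, smul_add]
  abel

end Fermat.Agent.RT.GammaH
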