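import Mathlib.Algebra.CharP.Lemmas
import Fermat.Agent.RT.GammaH.Action
import Fermat.Agent.RT.GammaH.Freeness
import Fermat.Agent.RT.GammaH.Elliptic
import Fermat.Agent.RT.GammaH.Invariant

/-!
# Freeness of the localised cohomology of `Γ_H` over the group ring of diamond operators
-/

set_option autoImplicit false

noncomputable section

namespace Fermat.Agent.RT.GammaH

open IsLocalRing MvPolynomial

variable {O : Type} [CommRing O] [IsLocalRing O] {L : ℕ} {Δ : Type} [CommGroup Δ] (ψ : (ZMod L)ˣ →* Δ)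
  (S : Finset ℕ) (abar : ℕ → ResidueField O)

/-- The residual system on the polynomial algebra: diamonds to `1`, `T_ℓ` to `abar ℓ`. -/
def opRes (L : ℕ) : OpRing O L S →ₐ[O] ResidueField O :=
  aeval (Sum.elim (fun _ => 1) fun ℓ => abar ℓ.1)

/-- The maximal ideal of the residual system. -/
def resIdeal (L : ℕ) : Ideal (OpRing O L S) := RingHom.ker (opRes S abar L)

theorem mem_resIdeal {a : OpRing O L S} : a ∈ resIdeal S abar L ↔ opRes S abar L a = 0 := Iff.rfl

theorem opRes_inl (u : (ZMod L)ˣ) : opRes S abar L (X (Sum.inl u)) = 1 := by simp [opRes]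

theorem opRes_inr (ℓ : {ℓ : ℕ // ℓ.Prime ∧ ℓ ∉ S}) :
    opRes S abar L (X (Sum.inr ℓ)) = abar ℓ.1 := by simp [opRes]

theorem opRes_surjective : Function.Surjective (opRes S abar L) := fun x => by
  obtain ⟨c, rfl⟩ := residue_surjective x
  exact ⟨C c, by simp [opRes, ResidueField.algebraMap_eq]⟩

instance : (resIdeal S abar L).IsMaximal :=
  RingHom.ker_isMaximal_of_surjective _ (opRes_surjective S abar)

theorem resIdeal_ne_top : resIdeal S abar L ≠ ⊤ :=
  Ideal.IsMaximal.ne_top inferInstance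

theorem isUnit_natCast {p : ℕ} [Fact p.Prime] [CharP (ResidueField O) p] {n : ℕ} (hn : ¬ p ∣ n) :
    IsUnit (n : O) := by
  rw [← residue_ne_zero_iff_isUnit, map_natCast]
  exact fun h => hn ((CharP.cast_eq_zero_iff _ p n).1 h)

theorem isUnit_two {p : ℕ} [Fact p.Prime] [CharP (ResidueField O) p] (hp : p ≠ 2) :
    IsUnit (2 : O) := by
  exact_mod_cast isUnit_natCast (O := O) (p := p) (n := 2) fun h =>
    hp ((Nat.prime_dvd_prime_iff_eq Fact.out Nat.prime_two).1 h)

/-- `-1` lies in the kernel of a homomorphism to a `p`-group, `p` odd. -/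
theorem neg_one_mem_ker {p : ℕ} [Fact p.Prime] (hp : p ≠ 2) (hΔ : IsPGroup p Δ) : -1 ∈ ψ.ker := by
  rw [MonoidHom.mem_ker]
  obtain ⟨k, hk⟩ := hΔ (ψ (-1))
  have h2 : ψ (-1) ^ 2 = 1 := by rw [← map_pow, neg_one_sq, map_one]
  have hodd : Odd (p ^ k) := ((Nat.Prime.odd_of_ne_two Fact.out hp).pow)
  obtain ⟨j, hj⟩ := hodd
  rw [hj, pow_succ, pow_mul, h2, one_pow, one_mul] at hk
  exact hk

/-- A section of `ψ`. -/
def psiInv {ψ : (ZMod L)ˣ →* Δ} (hψ : Function.Surjective ψ) (q : Δ) : (ZMod L)ˣ :=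
  Function.surjInv hψ q

variable {ψ} {K : Subgroup (ZMod L)ˣ} {A : Type} [AddCommGroup A] [Module O A]

theorem diamond_congr_ker (hK : ∀ u, u ∈ K ↔ ψ u = 1) {u v : (ZMod L)ˣ} (h : ψ u = ψ v) :
    diamond (A := A) L K O u = diamond L K O v := by
  rw [← diaHom_mk, ← diaHom_mk]
  congr 1
  rw [QuotientGroup.eq, hK, map_mul, map_inv, h, inv_mul_cancel]

/-- The quotient by the kernel, as `Δ`. -/
theorem exists_deltaEquiv (hK : ∀ u, u ∈ K ↔ ψ u = 1) (hψ : Function.Surjective ψ) :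
    ∃ E : Δ ≃ (ZMod L)ˣ ⧸ K, ∀ q, ψ (E q).out = q := by
  have hout : ∀ u : (ZMod L)ˣ, ψ (QuotientGroup.mk u : (ZMod L)ˣ ⧸ K).out = ψ u := fun u => by
    have h := QuotientGroup.out_eq' (QuotientGroup.mk u : (ZMod L)ˣ ⧸ K)
    rw [QuotientGroup.eq, hK, map_mul, map_inv, inv_mul_eq_one] at h
    exact h
  refine ⟨Equiv.ofBijective (fun q => QuotientGroup.mk (psiInv hψ q)) ⟨fun a b h => ?_, fun x => ?_⟩,
    fun q => (hout _).trans (Function.surjInv_eq hψ q)⟩
  · rw [QuotientGroup.eq, hK, map_mul, map_inv, inv_mul_eq_one] at h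
    simpa [psiInv, Function.surjInv_eq hψ] using h
  · induction x using QuotientGroup.induction_on with | _ u => ?_
    refine ⟨ψ u, ?_⟩
    rw [QuotientGroup.eq, hK, map_mul, map_inv, inv_mul_eq_one, psiInv, Function.surjInv_eq hψ]

variable (K A) in
/-- Corestriction to `Γ₀(L)` as a map of modules over the operators. -/
def coresLin [Fintype ((ZMod L)ˣ ⧸ K)] :
    HomMod O S K A →ₗ[OpRing O L S] HomMod O S (⊤ : Subgroup (ZMod L)ˣ) A :=
  upgrade (((toHomMod (O := O) (S := S) (K := (⊤ : Subgroup (ZMod L)ˣ)) (A := A)).toLinearMap.comp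
    (coresTop O K)).comp (toHomMod (O := O) (S := S) (K := K) (A := A)).symm.toLinearMap) fun i φ => by
    rcases i with u | ℓ
    · rw [X_inl_smul, X_inl_smul]
      exact (coresTop_diamond O u φ).trans (diamond_top O u _).symm
    · haveI : Fact ℓ.1.Prime := ⟨ℓ.2.1⟩
      rw [X_inr_smul, X_inr_smul]
      exact coresTop_hecke O φ

variable (K A) in
/-- Restriction from `Γ₀(L)` as a map of modules over the operators. -/
def resLin : HomMod O S (⊤ : Subgroup (ZMod L)ˣ) A →ₗ[OpRing O L S] HomMod O S K A :=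
  upgrade (((toHomMod (O := O) (S := S) (K := K) (A := A)).toLinearMap.comp
    (resTop O K)).comp (toHomMod (O := O) (S := S) (K := (⊤ : Subgroup (ZMod L)ˣ)) (A := A)).symm.toLinearMap) fun i φ => by
    rcases i with u | ℓ
    · rw [X_inl_smul, X_inl_smul]
      exact (congrArg _ (diamond_top O u φ)).trans (diamond_resTop O u φ).symm
    · haveI : Fact ℓ.1.Prime := ⟨ℓ.2.1⟩
      rw [X_inr_smul, X_inr_smul]
      exact resTop_hecke O φ

theorem mapCoeff_resLin {B : Type} [AddCommGroup B] [Module O B] (f : A →ₗ[O] B)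
    (φ : HomMod O S (⊤ : Subgroup (ZMod L)ˣ) A) :
    mapCoeff f (resLin S K A φ) = resLin S K B (mapCoeff f φ) := rfl

variable [IsDomain O] [IsDiscreteValuationRing O]

omit [IsLocalRing O] in
theorem exists_eq_smul {M : ℕ} {K : Subgroup (ZMod M)ˣ} {ϖ : O} (hϖ : Irreducible ϖ)
    {φ : HomMod O S K O} (h : ∀ γ, ϖ ∣ φ γ) : ∃ χ : HomMod O S K O, φ = ϖ • χ := by
  choose f hf using h
  refine ⟨toHomMod (AddMonoidHom.mk' f fun a b => mul_left_cancel₀ hϖ.ne_zero ?_),
    DFunLike.ext _ _ fun γ => hf γ⟩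
  rw [mul_add, ← hf, ← hf, ← hf, map_add]

variable [Finite (ResidueField O)] [IsAdicComplete (maximalIdeal O) O] {p : ℕ} [Fact p.Prime]
  [CharP (ResidueField O) p] [Fintype Δ] [NeZero L]

theorem exists_freeData [CharZero O] (hp : p ≠ 2) (hΔ : IsPGroup p Δ)
    (hψ : Function.Surjective ψ) (hK : ∀ u, u ∈ K ↔ ψ u = 1)
    (hS : ∀ v : ℕ, v.Prime → v ∣ L → v ∈ S)
    (hEis : ∃ ℓ : ℕ, ℓ.Prime ∧ ℓ ∉ S ∧ abar ℓ ≠ 1 + (ℓ : ResidueField O)) :
    ∃ e : OpRing O L S, IsLocalizer (resIdeal S abar L) (HomMod O S K O) e ∧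
      IsLocalizer (resIdeal S abar L) (HomMod O S (⊤ : Subgroup (ZMod L)ˣ) O) e ∧
      ∃ b : Fin (Module.finrank O (localPart O e (HomMod O S (⊤ : Subgroup (ZMod L)ˣ) O))) →
          localPart O e (HomMod O S K O),
        Function.Bijective fun c :
            Fin (Module.finrank O (localPart O e (HomMod O S (⊤ : Subgroup (ZMod L)ˣ) O))) × Δ →₀ O =>
          c.sum fun iq x =>
            x • localAct O e (HomMod O S K O) (X (Sum.inl (psiInv hψ iq.2))) (b iq.1) := by
  classical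
  have := Fintype.ofFinite ((ZMod L)ˣ ⧸ K)
  set H := HomMod O S K O
  set H₀ := HomMod O S (⊤ : Subgroup (ZMod L)ˣ) O
  obtain ⟨e, he⟩ := exists_isLocalizer (O := O) (resIdeal S abar L) (H × H₀)
  have heH : IsLocalizer (resIdeal S abar L) H e :=
    he.of_injective (LinearMap.inl _ H H₀) LinearMap.inl_injective
  have heH₀ : IsLocalizer (resIdeal S abar L) H₀ e :=
    he.of_injective (LinearMap.inr _ H H₀) LinearMap.inr_injective
  refine ⟨e, heH, heH₀, ?_⟩
  have h2 := isUnit_two (O := O) (p := p) hp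
  have hneg : -1 ∈ K := (hK _).2 (MonoidHom.mem_ker.1 (neg_one_mem_ker ψ hp hΔ))
  obtain ⟨E, hEout⟩ := exists_deltaEquiv hK hψ
  have hE : ∀ (q : Δ) (x : H), (X (Sum.inl (psiInv hψ q)) : OpRing O L S) • x =
      diamond L K O (E q).out x := fun q x => by
    rw [X_inl_smul, diamond_congr_ker hK (u := psiInv hψ q) (v := (E q).out)]
    exact (Function.surjInv_eq hψ q).trans (hEout q).symm
  obtain ⟨ℓ, hℓp, hℓS, hℓ⟩ := hEis
  have : Fact ℓ.Prime := ⟨hℓp⟩
  have hℓL : ¬ ℓ ∣ L := fun hc => hℓS (hS ℓ hℓp hc)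
  obtain ⟨ϖ, hϖ⟩ := IsDiscreteValuationRing.exists_irreducible O
  set δ : Δ → OpRing O L S := fun q => X (Sum.inl (psiInv hψ q)) with hδ
  set C' : H →ₗ[OpRing O L S] H₀ := coresLin S K O
  set R' : H₀ →ₗ[OpRing O L S] H := resLin S K O
  have h3 : ∀ a : O, a + a + a = 0 → a = 0 := fun a ha => by
    have h : (3 : O) * a = 0 := by rw [← ha]; ring
    exact (mul_eq_zero.1 h).resolve_left (by norm_num)
  have hC : Function.Surjective C' := coresTop_surjective O h2 h3 hneg
  set t₀ : OpRing O L S := X (Sum.inr ⟨ℓ, hℓp, hℓS⟩) - C ((1 : O) + (ℓ : O)) with ht₀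
  have ht₀m : t₀ ∉ resIdeal S abar L := by
    rw [mem_resIdeal, map_sub, opRes_inr, ← algebraMap_eq, AlgHom.commutes,
      ResidueField.algebraMap_eq, map_add, map_one, map_natCast, sub_eq_zero]
    exact hℓ
  let r : O →ₗ[O] ResidueField O := Algebra.linearMap O (ResidueField O)
  have ht₀smul : ∀ {K' : Subgroup (ZMod L)ˣ} (φ : HomMod O S K' (ResidueField O)),
      t₀ • φ = toHomMod (hecke L K' ℓ O (toHomMod.symm φ) - (ℓ + 1) • toHomMod.symm φ) := by
    intro K' φ
    rw [ht₀, sub_smul, X_inr_smul, ← algebraMap_eq, algebraMap_smul, ← Nat.cast_smul_eq_nsmul O]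
    push_cast
    rw [add_comm (1 : O)]
    rfl
  have hr : ∀ {K' : Subgroup (ZMod L)ˣ} (φ : HomMod O S K' O), mapCoeff r φ = 0 →
      ∃ χ : HomMod O S K' O, φ = ϖ • χ := by
    refine fun {K'} φ hφ => exists_eq_smul S hϖ fun γ => ?_
    have hγ : residue O (φ γ) = 0 := DFunLike.congr_fun hφ γ
    rwa [residue_eq_zero_iff, hϖ.maximalIdeal_eq, Ideal.mem_span_singleton] at hγ
  refine exists_freeBasis (O := O) (p := p) (𝔸 := OpRing O L S) (Δ := Δ) (H := H) (H₀ := H₀)
    hΔ heH heH₀ δ (fun x => ?_) (fun q q' x => ?_) C' hC R' (fun x => ?_) hϖ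
    (t := t₀) ht₀m (fun x y hxy => ?_) (fun x hx hfix => ?_)
  · rw [hδ, X_inl_smul]
    exact diamond_of_mem O ((hK _).2 (Function.surjInv_eq hψ 1)) x
  · rw [X_inl_smul, X_inl_smul, X_inl_smul]
    refine (LinearMap.congr_fun (diamond_congr_ker hK (v := psiInv hψ q * psiInv hψ q') ?_) x).trans
      (diamond_mul O _ _ x)
    rw [map_mul]
    simp only [psiInv, Function.surjInv_eq hψ]
  · simp only [hδ, hE]
    exact (resTop_coresTop O x).trans (E.sum_comp fun i => diamond L K O i.out x).symm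
  · have h0 : resTop O K (mapCoeff r x) = 0 := by
      show resLin S K _ (mapCoeff r x) = 0
      rw [← mapCoeff_resLin, hxy]
      refine DFunLike.ext _ _ fun γ => ?_
      show residue O (ϖ * y γ) = 0
      rw [map_mul, (residue_eq_zero_iff ϖ).2 hϖ.not_isUnit, zero_mul]
    refine hr _ ?_
    rw [map_smul, ht₀smul, show hecke L ⊤ ℓ O (toHomMod.symm (mapCoeff r x)) =
      (ℓ + 1) • toHomMod.symm (mapCoeff r x) from hecke_of_resTop_eq_zero' O h0 hℓL, sub_self,
      map_zero]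
  · -- invariant classes mod `ϖ` are restrictions, up to `t₀ ^ 2`
    have hinv : ∀ u, diamond L K O u (toHomMod.symm (mapCoeff r x)) =
        toHomMod.symm (mapCoeff r x) := fun u => by
      rw [diamond_congr_ker hK (v := psiInv hψ (ψ u)) (Function.surjInv_eq hψ (ψ u)).symm]
      obtain ⟨y, hy⟩ := hfix (ψ u)
      have h := congrArg (mapCoeff (S := S) (K := K) r) hy
      rw [map_sub, map_smul, hδ, X_inl_smul, show mapCoeff r (ϖ • y) = 0 from
        DFunLike.ext _ _ fun γ => by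
          show residue O (ϖ * y γ) = 0
          rw [map_mul, (residue_eq_zero_iff ϖ).2 hϖ.not_isUnit, zero_mul], sub_eq_zero] at h
      exact h
    obtain ⟨ψ₁, hψ₁⟩ := exists_resTop_eq_hecke_sub O hinv hℓL
    set y₁ : HomMod O S (⊤ : Subgroup (ZMod L)ˣ) (ResidueField O) := toHomMod ψ₁
    have hy₁ : resLin S K _ y₁ = t₀ • mapCoeff r x := by
      rw [ht₀smul]
      exact hψ₁
    have h2k : ∀ a : ResidueField O, a + a = 0 → a = 0 := fun a ha => by
      rw [← two_mul] at ha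
      exact (mul_eq_zero.1 ha).resolve_left (by
        rw [← map_ofNat (residue O) 2]
        exact (h2.map (residue O)).ne_zero)
    obtain ⟨z, hz⟩ := exists_lift (O := O) (neg_one_mem_gammaH (Subgroup.mem_top _)) h2 r
      residue_surjective (toHomMod.symm (t₀ • y₁)) (by
        rw [ht₀smul]
        exact hecke_sub_killsThree O h2k hℓL ψ₁)
    set z₀ : H₀ := toHomMod z
    have hz₀ : mapCoeff r z₀ = t₀ • y₁ := by
      rw [mapCoeff_apply]
      exact congrArg toHomMod hz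
    obtain ⟨y₂, hy₂⟩ := hr (t₀ • t₀ • x - R' z₀) (by
      rw [map_sub, map_smul, map_smul, mapCoeff_resLin, hz₀, map_smul, hy₁, sub_self])
    obtain ⟨t', ht'⟩ := heH.invert t₀ ht₀m
    have key : (t' * t' * e) • t₀ • t₀ • x = x := by
      simp only [smul_smul]
      rw [show t' * t' * e * (t₀ * t₀) = t₀ * t' * (t₀ * t' * e) by ring, mul_smul, ht', hx]
      calc (t₀ * t') • x = (t₀ * t' * e) • x := by rw [mul_smul _ e, hx]
        _ = x := by rw [ht', hx]
    refine ⟨(t' * t' * e) • z₀, (t' * t' * e) • y₂, ?_⟩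
    rw [map_smul, ← smul_comm, ← smul_add, ← hy₂, add_sub_cancel, key]

end Fermat.Agent.RT.GammaH
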