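import Fermat.Agent.RT.GammaH.Descend
import Fermat.Agent.RT.GammaH.Embed

/-!
# Construction of the Hecke module of `ker ψ`

`exists_heckeModule`: for `p ≠ 2`, squarefree `L` and a non-Eisenstein residual system the localised
`Hom(Γ_H, O)`, `H = ker ψ`, is a `HeckeModule` of rank `heckeRank O L S abar`, which is positive
exactly when `L` is a congruent level.
-/

set_option autoImplicit false

noncomputable section

namespace Fermat.Agent.RT.GammaH

open CongruenceSubgroup MvPolynomial IsLocalRing ModularFormClass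
open ModularCurve.Period
open scoped MatrixGroups ModularForm

/-- Two localisers have the same range. -/
theorem IsLocalizer.localPart_eq {O : Type} [CommRing O] {𝔸 : Type} [CommRing 𝔸] [Algebra O 𝔸]
    {H : Type*} [AddCommGroup H] [Module 𝔸 H] [Module O H] [IsScalarTower O 𝔸 H] {m : Ideal 𝔸}
    (hm : m ≠ ⊤) {e e' : 𝔸} (he : IsLocalizer m H e) (he' : IsLocalizer m H e') :
    localPart O e H = localPart O e' H := by
  have key : ∀ {a b : 𝔸}, IsLocalizer m H a → IsLocalizer m H b →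
      ∀ x : H, a • x = x → b • x = x := by
    intro a b ha hb x hx
    have hb' : b ∉ m := fun h => hm ((Ideal.eq_top_iff_one m).2 (by
      simpa using m.sub_mem h hb.sub_one_mem))
    refine (sub_eq_zero.1 (ha.eq_zero_of_smul_eq_zero hb' (x := x - b • x) ?_ ?_)).symm
    · rw [smul_sub, hx, smul_comm, hx]
    · rw [smul_sub, hb.idem, sub_self]
  ext x
  exact ⟨key he he' x, key he' he x⟩

/-- An operator killing `x` and every power of which kills only what it kills is reduced. -/
theorem isReduced_adjoin {O : Type} [CommRing O] {𝔸 : Type} [CommRing 𝔸] [Algebra O 𝔸]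
    {N : Type} [AddCommGroup N] [Module O N] (f : 𝔸 →ₐ[O] Module.End O N) (T : Set (Module.End O N))
    (hT : T ⊆ f.range) (hred : ∀ (a : 𝔸) (n : ℕ), f (a ^ n) = 0 → f a = 0) :
    IsReduced (Algebra.adjoin O T) := by
  refine ⟨fun x hx => ?_⟩
  obtain ⟨n, hn⟩ := hx
  obtain ⟨a, ha⟩ := Algebra.adjoin_le (R := O) hT x.2
  refine Subtype.ext ?_
  rw [ZeroMemClass.coe_zero, ← ha]
  refine hred a n ?_
  rw [map_pow]
  rw [show f a = (x : Module.End O N) from ha, ← SubmonoidClass.coe_pow, hn]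
  rfl

section Rank

variable (O : Type) [CommRing O] [IsLocalRing O] [IsNoetherianRing O]
  [IsAdicComplete (maximalIdeal O) O] [IsDomain O] [IsPrincipalIdealRing O]

open scoped Classical in
/-- The rank of the localisation of `Hom(Γ₀(L), O)` at a residual system. -/
def heckeRank (L : ℕ) [NeZero L] (S : Finset ℕ) (abar : ℕ → ResidueField O) : ℕ :=
  Module.finrank O (localPart O
    (exists_isLocalizer (O := O) (resIdeal S abar L)
      (HomMod O S (⊤ : Subgroup (ZMod L)ˣ) O)).choose (HomMod O S (⊤ : Subgroup (ZMod L)ˣ) O))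

end Rank

variable {O : Type} [CommRing O] [IsDomain O] [IsDiscreteValuationRing O]
  [IsAdicComplete (maximalIdeal O) O] [Finite (ResidueField O)] [CharZero O]
  {p : ℕ} [Fact p.Prime] [CharP (ResidueField O) p] {L : ℕ} [NeZero L] {Δ : Type} [CommGroup Δ]
  [Finite Δ] {ψ : (ZMod L)ˣ →* Δ} {S : Finset ℕ} {abar : ℕ → ResidueField O}

omit [Finite (ResidueField O)] [CharZero O] in
theorem finrank_localPart_eq_heckeRank {e : OpRing O L S}
    (he : IsLocalizer (resIdeal S abar L) (HomMod O S (⊤ : Subgroup (ZMod L)ˣ) O) e) :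
    Module.finrank O (localPart O e (HomMod O S (⊤ : Subgroup (ZMod L)ˣ) O)) =
      heckeRank O L S abar := by
  rw [heckeRank, IsLocalizer.localPart_eq (O := O) (resIdeal_ne_top S abar) he
    (exists_isLocalizer (O := O) (resIdeal S abar L)
      (HomMod O S (⊤ : Subgroup (ZMod L)ˣ) O)).choose_spec]

/-- A congruent level has positive rank, and conversely. -/
theorem heckeRank_pos_iff (hL : Squarefree L) (hS : ∀ v : ℕ, v.Prime → v ∣ L → v ∈ S)
    (hEis : ∃ ℓ : ℕ, ℓ.Prime ∧ ℓ ∉ S ∧ abar ℓ ≠ 1 + (ℓ : ResidueField O)) :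
    0 < heckeRank O L S abar ↔ IsCongruentLevel S abar L := by
  obtain ⟨e, he⟩ := exists_isLocalizer (O := O) (resIdeal S abar L)
    (HomMod O S (⊤ : Subgroup (ZMod L)ˣ) O)
  rw [← finrank_localPart_eq_heckeRank he]
  have hiff : 0 < Module.finrank O (localPart O e (HomMod O S (⊤ : Subgroup (ZMod L)ˣ) O)) ↔
      localPart O e (HomMod O S (⊤ : Subgroup (ZMod L)ˣ) O) ≠ ⊥ := by
    rw [Module.finrank_pos_iff, Submodule.nontrivial_iff_ne_bot]
  rw [hiff]
  refine ⟨fun h => ?_, ne_bot_of_isCongruentLevel he⟩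
  obtain ⟨σ, hσ⟩ := exists_injective_complex O
  let : Algebra O ℂ := σ.toAlgebra
  exact isCongruentLevel_of_ne_bot hL hS hσ hEis he h

/-- **The localised Hecke module of `ker ψ`**, with the corestriction: onto the localised classes
of `Γ₀(L)`, its kernel the augmentation of the diamonds. -/
theorem exists_heckeModule_cores (hp : p ≠ 2) (hL : Squarefree L) (hψ : Function.Surjective ψ)
    (hΔ : IsPGroup p Δ) (hS : ∀ v : ℕ, v.Prime → v ∣ L → v ∈ S)
    (hEis : ∃ ℓ : ℕ, ℓ.Prime ∧ ℓ ∉ S ∧ abar ℓ ≠ 1 + (ℓ : ResidueField O)) :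
    ∃ (H : HeckeModule L ψ S abar) (e : OpRing O L S)
      (π : H.M →ₗ[O] localPart O e (HomMod O S (⊤ : Subgroup (ZMod L)ˣ) O)),
      IsLocalizer (resIdeal S abar L) (HomMod O S (⊤ : Subgroup (ZMod L)ˣ) O) e ∧
      H.d = heckeRank O L S abar ∧ Function.Surjective π ∧
      (∀ x, π x = 0 ↔ x ∈ Submodule.span O (Set.range fun z : Δ × H.M => H.dia z.1 z.2 - z.2)) ∧
      ∀ (ℓ : ℕ) (h : ℓ.Prime ∧ ℓ ∉ S) (x : H.M), π (H.T ℓ x) =
        localAct O e (HomMod O S (⊤ : Subgroup (ZMod L)ˣ) O) (X (Sum.inr ⟨ℓ, h⟩)) (π x) := by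
  classical
  have := Fintype.ofFinite Δ
  set K := ψ.ker with hKdef
  have hK : ∀ u, u ∈ K ↔ ψ u = 1 := fun u => MonoidHom.mem_ker
  obtain ⟨e, he, he₀, b, hb⟩ := exists_freeData (ψ := ψ) (K := K) S abar hp hΔ hψ hK hS hEis
  set H := HomMod O S K O
  set act := localAct O e H
  let dia : Δ →* Module.End O (localPart O e H) :=
    { toFun := fun q => act (X (Sum.inl (psiInv hψ q)))
      map_one' := LinearMap.ext fun x => Subtype.ext (by
        rw [coe_localAct_apply, X_inl_smul]
        exact diamond_of_mem O ((hK _).2 (Function.surjInv_eq hψ 1)) _)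
      map_mul' := fun q q' => LinearMap.ext fun x => Subtype.ext (by
        rw [Module.End.mul_apply, coe_localAct_apply, coe_localAct_apply, coe_localAct_apply,
          X_inl_smul, X_inl_smul, X_inl_smul]
        refine (LinearMap.congr_fun (diamond_congr_ker hK
          (v := psiInv hψ q * psiInv hψ q') ?_) _).trans (diamond_mul O _ _ _)
        rw [map_mul]
        simp only [psiInv, Function.surjInv_eq hψ]) }
  have hdia : ∀ u, act (X (Sum.inl u)) = dia (ψ u) := fun u =>
    LinearMap.ext fun x => Subtype.ext (by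
      show _ = ((act (X (Sum.inl (psiInv hψ (ψ u)))) x : localPart O e H) : H)
      rw [coe_localAct_apply, coe_localAct_apply, X_inl_smul, X_inl_smul]
      exact LinearMap.congr_fun (diamond_congr_ker hK (Function.surjInv_eq hψ (ψ u)).symm) _)
  let T : ℕ → Module.End O (localPart O e H) := fun ℓ =>
    if h : ℓ.Prime ∧ ℓ ∉ S then act (X (Sum.inr ⟨ℓ, h⟩)) else 0
  have hT : ∀ (ℓ : ℕ) (h : ℓ.Prime ∧ ℓ ∉ S), T ℓ = act (X (Sum.inr ⟨ℓ, h⟩)) :=
    fun ℓ h => dif_pos h
  set gen := Set.range dia ∪ T '' {ℓ | ℓ.Prime ∧ ℓ ∉ S}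
  have hgen : gen ⊆ act.range := by
    rintro _ (⟨q, rfl⟩ | ⟨ℓ, hℓ, rfl⟩)
    · exact ⟨_, rfl⟩
    · exact ⟨_, (hT ℓ hℓ).symm⟩
  have hmem : ∀ a, act a ∈ Algebra.adjoin O gen := fun a => by
    induction a using MvPolynomial.induction_on with
    | C c => rw [← algebraMap_eq, AlgHom.commutes]; exact Subalgebra.algebraMap_mem _ c
    | add a a' ha ha' => rw [map_add]; exact add_mem ha ha'
    | mul_X a i ha =>
      rw [map_mul]
      refine mul_mem ha ?_
      rcases i with u | ℓ
      · rw [hdia]; exact Algebra.subset_adjoin (Or.inl ⟨_, rfl⟩)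
      · rw [← hT ℓ.1 ℓ.2]; exact Algebra.subset_adjoin (Or.inr ⟨_, ℓ.2, rfl⟩)
  have hneg : -1 ∈ K := (hK _).2 (MonoidHom.mem_ker.1 (neg_one_mem_ker ψ hp hΔ))
  obtain ⟨E, -⟩ := exists_deltaEquiv hK hψ
  have hcard : Nat.card ((ZMod L)ˣ ⧸ K) = Nat.card Δ := (Nat.card_congr E).symm
  have hodd : Odd (Nat.card ((ZMod L)ˣ ⧸ K)) := by
    obtain ⟨k, hk⟩ := IsPGroup.iff_card.1 hΔ
    rw [hcard, hk]
    exact (Nat.Prime.odd_of_ne_two Fact.out hp).pow
  obtain ⟨ℓ₀, hℓp, hℓS, hℓ⟩ := hEis
  obtain ⟨P, hP, hpar⟩ := exists_parabolicOp (K := K) S abar hL hneg hℓp hℓS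
    (fun h => hℓS (hS ℓ₀ hℓp h)) hℓ
  have hEis : ∃ ℓ : ℕ, ℓ.Prime ∧ ℓ ∉ S ∧ abar ℓ ≠ 1 + (ℓ : ResidueField O) := ⟨ℓ₀, hℓp, hℓS, hℓ⟩
  -- the corestriction
  have := Fintype.ofFinite ((ZMod L)ˣ ⧸ K)
  let H₀ := HomMod O S (⊤ : Subgroup (ZMod L)ˣ) O
  let M₀ := localPart O e H₀
  let cores : H →ₗ[OpRing O L S] H₀ := coresLin S K O
  let π : localPart O e H →ₗ[O] M₀ :=
    ((cores.restrictScalars O).comp (localPart O e H).subtype).codRestrict M₀ fun x => by
      show e • cores x = cores x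
      rw [← map_smul, show e • (x : H) = x from x.2]
  have hπT : ∀ (a : OpRing O L S) (x : localPart O e H), π (act a x) = localAct O e H₀ a (π x) :=
    fun a x => Subtype.ext (map_smul cores a (x : H))
  have hπd : ∀ (q : Δ) (x : localPart O e H), π (dia q x) = π x := fun q x => by
    refine (hπT _ x).trans (Subtype.ext ?_)
    rw [coe_localAct_apply, X_inl_smul]
    exact diamond_top O _ _
  have hπs : Function.Surjective π := fun w => by
    have h3 : ∀ a : O, a + a + a = 0 → a = 0 := fun a ha => by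
      have h : (3 : O) * a = 0 := by rw [← ha]; ring
      exact (mul_eq_zero.1 h).resolve_left (by norm_num)
    obtain ⟨y, hy⟩ : ∃ y : H, cores y = w.1 :=
      coresTop_surjective O (isUnit_two (O := O) (p := p) hp) h3 hneg w.1
    refine ⟨⟨e • y, he.idem y⟩, Subtype.ext ?_⟩
    show cores (e • y) = w.1
    rw [map_smul, hy]
    exact w.2
  let A : Submodule O (localPart O e H) :=
    Submodule.span O (Set.range fun z : Δ × localPart O e H => dia z.1 z.2 - z.2)
  have hAle : ∀ x ∈ A, π x = 0 := fun x hx => by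
    refine (Submodule.span_le.2 ?_ : A ≤ LinearMap.ker π) hx
    rintro _ ⟨z, rfl⟩
    exact (map_sub π _ _).trans (sub_eq_zero.2 (hπd z.1 z.2))
  let bmap := Fintype.linearCombination O b
  have hgenA : ∀ x, ∃ a, x - bmap a ∈ A := fun x => by
    obtain ⟨c, rfl⟩ := hb.2 x
    refine ⟨fun i => ∑ q, c (i, q), ?_⟩
    have e1 : bmap (fun i => ∑ q, c (i, q)) = ∑ iq : _ × Δ, c iq • b iq.1 := by
      rw [Fintype.sum_prod_type, Fintype.linearCombination_apply]
      exact Finset.sum_congr rfl fun i _ => Finset.sum_smul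
    dsimp only
    rw [e1, Finsupp.sum_fintype, ← Finset.sum_sub_distrib]
    swap
    · exact fun _ => zero_smul O _
    refine sum_mem fun iq _ => ?_
    rw [← smul_sub]
    exact Submodule.smul_mem _ _ (Submodule.subset_span ⟨(iq.2, b iq.1), rfl⟩)
  have hπk : ∀ x, π x = 0 ↔ x ∈ A := fun x => by
    refine ⟨fun hx => ?_, hAle x⟩
    obtain ⟨a, ha⟩ := hgenA x
    let g := ((Module.finBasis O M₀).equivFun.toLinearMap).comp (π.comp bmap)
    have hg : Function.Surjective g := fun v => by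
      obtain ⟨y, hy⟩ := hπs ((Module.finBasis O M₀).equivFun.symm v)
      obtain ⟨a', ha'⟩ := hgenA y
      refine ⟨a', ?_⟩
      have h := hAle _ ha'
      rw [map_sub, sub_eq_zero, hy] at h
      show (Module.finBasis O M₀).equivFun (π (bmap a')) = v
      rw [← h, LinearEquiv.apply_symm_apply]
    have ha0 : a = 0 := OrzechProperty.injective_of_surjective_endomorphism g hg <| by
      have h := hAle _ ha
      rw [map_sub, hx, zero_sub, neg_eq_zero] at h
      show (Module.finBasis O M₀).equivFun (π (bmap a)) = g 0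
      rw [h, map_zero, map_zero]
    rwa [ha0, map_zero, sub_zero] at ha
  refine ⟨
    { M := localPart O e H
      d := _
      basis := b
      T := T
      dia := dia
      basis_bijective := hb
      T_comm := fun ℓ ℓ' => ?_
      dia_comm := fun ℓ q => ?_
      residual := fun ℓ hℓ' hℓS' a ha => ?_
      isReduced := isReduced_adjoin act gen hgen fun a n ha => ?_
      eigen := fun θ => ?_ }, e, π, he₀, finrank_localPart_eq_heckeRank he₀, hπs, hπk,
      fun ℓ h x => ?_⟩
  · simp only [T]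
    split_ifs <;> first | rw [← map_mul, ← map_mul, mul_comm] | simp
  · show T ℓ * act _ = act _ * T ℓ
    simp only [T]
    split_ifs <;> first | rw [← map_mul, ← map_mul, mul_comm] | simp
  · have hr : (X (Sum.inr ⟨ℓ, hℓ', hℓS'⟩) - C a : OpRing O L S) ∈ resIdeal S abar L := by
      rw [mem_resIdeal, map_sub, opRes_inr, ← algebraMap_eq, AlgHom.commutes,
        ResidueField.algebraMap_eq, ha, sub_self]
    obtain ⟨n, hn⟩ := he.exists_pow_smul_mem (O := O) hr (resIdeal_ne_top S abar)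
    refine ⟨n, fun x => ?_⟩
    have h1 : ((T ℓ - a • (1 : Module.End O (localPart O e H))) ^ n) =
        act ((X (Sum.inr ⟨ℓ, hℓ', hℓS'⟩) - C a) ^ n) := by
      rw [map_pow, map_sub, hT ℓ ⟨hℓ', hℓS'⟩, ← algebraMap_eq, AlgHom.commutes,
        Algebra.algebraMap_eq_smul_one]
    rw [h1]
    have h2 := hn x x.2
    rw [← coe_localAct_apply] at h2
    have hmap : (maximalIdeal O • (⊤ : Submodule O (localPart O e H))).map (localPart O e H).subtype =
        maximalIdeal O • localPart O e H := by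
      rw [Submodule.map_smul'', Submodule.map_subtype_top]
    rw [← hmap] at h2
    obtain ⟨z, hz, hzx⟩ := h2
    exact Subtype.ext hzx ▸ hz
  · obtain ⟨σ, hσ⟩ := exists_injective_complex O
    let : Algebra O ℂ := σ.toAlgebra
    refine LinearMap.ext fun x => Subtype.ext ?_
    rw [coe_localAct_apply, LinearMap.zero_apply, ZeroMemClass.coe_zero]
    refine smul_eq_zero_of_pow_smul hneg hL hodd hS hσ he hP (fun φ => hpar ℂ φ) x.2 (n := n) ?_
    exact congrArg Subtype.val (LinearMap.congr_fun ha x)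
  · let σ : O →+* ℂ := θ.comp (algebraMap O (Algebra.adjoin O gen))
    have hσ : Function.Injective σ := by
      have hker : RingHom.ker σ ≠ maximalIdeal O := fun h => by
        have hpm : (p : O) ∈ maximalIdeal O := by
          rw [← residue_eq_zero_iff, map_natCast, CharP.cast_eq_zero]
        rw [← h, RingHom.mem_ker, map_natCast, Nat.cast_eq_zero] at hpm
        exact (Fact.out : p.Prime).ne_zero hpm
      rw [RingHom.injective_iff_ker_eq_bot]
      by_contra hbot
      exact hker (eq_maximalIdeal ((RingHom.ker_isPrime σ).isMaximal hbot))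
    let : Algebra O ℂ := σ.toAlgebra
    let θR' : OpRing O L S →ₐ[O] ℂ :=
      { θ.comp (act.codRestrict (Algebra.adjoin O gen) hmem).toRingHom with
        commutes' := fun c => by
          show θ (act.codRestrict (Algebra.adjoin O gen) hmem (algebraMap O _ c)) = σ c
          rw [AlgHom.commutes]
          rfl }
    have hθ : ∀ a, act a = 0 → θR' a = 0 := fun a ha => by
      show θ (act.codRestrict (Algebra.adjoin O gen) hmem a) = 0
      rw [show act.codRestrict (Algebra.adjoin O gen) hmem a = 0 from Subtype.ext ha, map_zero]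
    have hθdia : ∀ u, θR' (X (Sum.inl u)) =
        θ ⟨dia (ψ u), Algebra.subset_adjoin (Or.inl ⟨_, rfl⟩)⟩ :=
      fun u => congrArg θ (Subtype.ext (hdia u))
    obtain ⟨φ, hφ0, hφ, heig⟩ := exists_eigvec hσ he hP (hpar ℂ) θR' hθ
    let diaT : Δ →* (Algebra.adjoin O gen) :=
      { toFun := fun q => ⟨dia q, Algebra.subset_adjoin (Or.inl ⟨q, rfl⟩)⟩
        map_one' := Subtype.ext (map_one dia)
        map_mul' := fun q q' => Subtype.ext (map_mul dia q q') }
    let χ : (ZMod L)ˣ →* ℂˣ := ((θ.toMonoidHom.comp diaT).comp ψ).toHomUnits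
    have hχ : ∀ u, (χ u : ℂ) = θ ⟨dia (ψ u), Algebra.subset_adjoin (Or.inl ⟨_, rfl⟩)⟩ :=
      fun u => rfl
    let aθ : ℕ → ℂ := fun ℓ => if h : ℓ.Prime ∧ ℓ ∉ S then θR' (X (Sum.inr ⟨ℓ, h⟩)) else 0
    have haθ : ∀ (ℓ : ℕ) (h : ℓ.Prime ∧ ℓ ∉ S), aθ ℓ = θR' (X (Sum.inr ⟨ℓ, h⟩)) :=
      fun ℓ h => dif_pos h
    have haT : ∀ (ℓ : ℕ) (hℓ : ℓ.Prime) (hℓS : ℓ ∉ S),
        θ ⟨T ℓ, Algebra.subset_adjoin (Or.inr ⟨ℓ, ⟨hℓ, hℓS⟩, rfl⟩)⟩ = aθ ℓ := fun ℓ h1 h2 => by
      rw [haθ ℓ ⟨h1, h2⟩]
      exact congrArg θ (Subtype.ext (hT ℓ ⟨h1, h2⟩))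
    obtain ⟨L', g, hg, hL', hcoef, hsq, hdesc, f, hf1, hfneb, hfa, hfrec⟩ :=
      exists_newform_of_eigen hL hneg hodd S hS χ
        (fun u hu => Units.ext (by
          rw [hχ, (hK u).1 hu, show (⟨dia 1, _⟩ : (Algebra.adjoin O gen)) = 1 from Subtype.ext (map_one dia), map_one,
            Units.val_one]))
        aθ hφ hφ0 (fun u => by
          rw [← opC_inl (O := O) (S := S), heig, hθdia, ← hχ])
        (fun ℓ _ hℓS => by
          rw [haθ ℓ ⟨Fact.out, hℓS⟩, ← heig, opC_inr])
    refine ⟨L', g, hg, hL', fun ℓ hℓ hℓS u hu => ?_, fun v hv hvL => ?_, fun v hv hvL hvL' => ?_,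
      f, hf1, fun γ u hu => ?_, fun ℓ hℓ hℓS => ?_, fun ℓ hℓ hℓS u hu n => ?_⟩
    · rw [map_mul, map_pow, haT ℓ hℓ hℓS, ← hχ, hcoef ℓ hℓ hℓS u hu, hcard]
      rfl
    · rw [hsq v hv hvL]
      simp only [← hχ, ne_eq, Units.val_eq_one]
    · obtain ⟨φ', hφ'0, hφ'dia, hφ'T⟩ := hdesc v hv hvL hvL'
      have hdvd : L / v ∣ L := Nat.div_dvd_of_dvd hvL
      have : NeZero (L / v) :=
        ⟨(Nat.div_pos (Nat.le_of_dvd (Nat.pos_of_ne_zero (NeZero.ne L)) hvL) hv.pos).ne'⟩
      obtain ⟨red, hred⟩ := exists_red O hσ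
      let θI : OpRing O L S →ₐ[O] integralClosure O ℂ :=
        θR'.codRestrict _ fun a => isIntegral_character θR' hθ a
      have hredI : ∀ a, red (θI a) = algebraMap (ResidueField O) _ (opRes S abar L a) := fun a =>
        red_character he θR' hθ hred a rfl
      have hπs : Function.Surjective (ZMod.unitsMap hdvd) := ZMod.unitsMap_surjective hdvd
      let θ₁ : OpRing O (L / v) S →ₐ[O] integralClosure O ℂ :=
        aeval (Sum.elim (fun w => θI (X (Sum.inl (Function.surjInv hπs w))))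
          fun ℓ => θI (X (Sum.inr ℓ)))
      have heig₁ : ∀ a, opC O S (K.map (ZMod.unitsMap hdvd)) a φ' = (θ₁ a : ℂ) • φ' := fun a => by
        refine opC_eigen ((integralClosure O ℂ).val.comp θ₁) (fun w => ?_) (fun ℓ hℓ => ?_) a
        · have h := hφ'dia (Function.surjInv hπs w)
          rw [Function.surjInv_eq hπs] at h
          rw [h]
          congr 1
          simp only [AlgHom.comp_apply, θ₁, aeval_X, Sum.elim_inl]
          rw [hχ, ← hθdia]
          rfl
        · have h := hφ'T ℓ.1 ℓ.2.2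
          rw [h, haθ ℓ.1 ℓ.2]
          congr 1
          simp only [AlgHom.comp_apply, θ₁, aeval_X, Sum.elim_inr]
          rfl
      refine isCongruentLevel_of_eigen hp (hL.squarefree_of_dvd hdvd)
        (fun w hw hwd => hS w hw (hwd.trans hdvd)) hσ hEis ?_ hred hφ'0 θ₁ heig₁ fun a => ?_
      · intro q
        induction q using QuotientGroup.induction_on with | _ w => ?_
        obtain ⟨k, hk⟩ := hΔ (ψ (Function.surjInv hπs w))
        refine ⟨k, ?_⟩
        rw [← map_pow, ← hK] at hk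
        rw [← QuotientGroup.mk_pow, QuotientGroup.eq_one_iff]
        exact ⟨_, hk, by rw [map_pow, Function.surjInv_eq hπs]⟩
      · refine congrFun (congrArg DFunLike.coe (MvPolynomial.ringHom_ext
          (f := red.comp θ₁.toRingHom)
          (g := (algebraMap (ResidueField O) (AlgebraicClosure (ResidueField O))).comp
            ((opRes S abar (L / v) : OpRing O (L / v) S →ₐ[O] _) :
              OpRing O (L / v) S →+* ResidueField O)) (fun c => ?_) fun i => ?_)) a
        · show red (θ₁ (C c)) = algebraMap (ResidueField O) _ (opRes S abar (L / v) (C c))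
          rw [← algebraMap_eq, AlgHom.commutes, hred, AlgHom.commutes, ResidueField.algebraMap_eq]
        · show red (θ₁ (X i)) = algebraMap (ResidueField O) _ (opRes S abar (L / v) (X i))
          rcases i with w | ℓ
          · simp only [θ₁, aeval_X, Sum.elim_inl, hredI, opRes_inl]
          · simp only [θ₁, aeval_X, Sum.elim_inr, hredI, opRes_inr]
    · rw [← hχ]
      exact hfneb γ u hu
    · rw [haT ℓ hℓ hℓS]
      exact hfa ℓ hℓ hℓS
    · rw [← hχ]
      exact hfrec ℓ hℓ hℓS u hu n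
  · exact (congrArg π (LinearMap.congr_fun (hT ℓ h) x)).trans (hπT (X (Sum.inr ⟨ℓ, h⟩)) x)

/-- **The localised Hecke module of `ker ψ`.** -/
theorem exists_heckeModule (hp : p ≠ 2) (hL : Squarefree L) (hψ : Function.Surjective ψ)
    (hΔ : IsPGroup p Δ) (hS : ∀ v : ℕ, v.Prime → v ∣ L → v ∈ S)
    (hEis : ∃ ℓ : ℕ, ℓ.Prime ∧ ℓ ∉ S ∧ abar ℓ ≠ 1 + (ℓ : ResidueField O)) :
    ∃ H : HeckeModule L ψ S abar, H.d = heckeRank O L S abar :=
  let ⟨H, _, _, _, hd, _⟩ := exists_heckeModule_cores hp hL hψ hΔ hS hEis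
  ⟨H, hd⟩

end Fermat.Agent.RT.GammaH
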