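import Fermat.Agent.RT.GammaH.Eigen
import Fermat.Agent.RT.GammaH.Lattice
import Fermat.Agent.RT.GammaH.Local
import Fermat.Agent.RT.GammaH.Residual

/-!
# A residually congruent eigenclass gives a congruent form on `Γ₀(M)`

An eigenclass in `Hom(Γ_H, ℂ)`, `H` of `p`-power index, with integral values reducing to the
residual system, gives a congruent level `M` (`p ≠ 2`).
-/

set_option autoImplicit false

noncomputable section

namespace Fermat.Agent.RT.GammaH

open CongruenceSubgroup MvPolynomial IsLocalRing ModularFormClass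
open ModularCurve.Period
open scoped MatrixGroups ModularForm

section Kills

variable {O : Type} [CommRing O] [Algebra O ℂ] {M : ℕ} [NeZero M] {K : Subgroup (ZMod M)ˣ}
  {S : Finset ℕ}

/-- An operator killing `Hom(Γ_H, O)` kills `Hom(Γ_H, ℂ)`. -/
theorem opC_eq_zero_of_forall {a : OpRing O M S} (ha : ∀ φ : HomMod O S K O, a • φ = 0) :
    opC O S K a = 0 := by
  refine LinearMap.ext fun φ => ?_
  obtain ⟨r, w, ψ, hψ⟩ := exists_int_decomp φ
  have e : φ = ∑ i, w i • toHomC (toHomMod ((algebraMap ℤ O).toAddMonoidHom.comp (ψ i)) :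
      HomMod O S K O) := by
    refine AddMonoidHom.ext fun γ => ?_
    rw [hψ γ, AddMonoidHom.finsetSum_apply]
    refine Finset.sum_congr rfl fun i _ => ?_
    show _ = w i * algebraMap O ℂ (algebraMap ℤ O (ψ i γ))
    simp
  rw [e]
  simp [map_sum, map_smul, ← toHomC_smul, ha]

/-- The complex operators see an eigenclass through the characters of the generators. -/
theorem opC_eigen {φ : HomC K} (θ : OpRing O M S →ₐ[O] ℂ)
    (hdia : ∀ u, diamond M K ℂ u φ = θ (X (Sum.inl u)) • φ)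
    (hT : ∀ (ℓ : {ℓ : ℕ // ℓ.Prime ∧ ℓ ∉ S}) [Fact ℓ.1.Prime],
      hecke M K ℓ.1 ℂ φ = θ (X (Sum.inr ℓ)) • φ) (a : OpRing O M S) :
    opC O S K a φ = θ a • φ := by
  induction a using MvPolynomial.induction_on with
  | C c => rw [opC_C, Module.algebraMap_end_apply, ← algebraMap_eq, AlgHom.commutes]
  | add a b ha hb => rw [map_add, map_add, LinearMap.add_apply, ha, hb, add_smul]
  | mul_X a i ha =>
    have hi : opC O S K (X i) φ = θ (X i) • φ := by
      rcases i with u | ℓ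
      · rw [opC_inl, hdia]
      · have : Fact ℓ.1.Prime := ⟨ℓ.2.1⟩
        rw [opC_inr, hT]
    rw [map_mul, map_mul, Module.End.mul_apply, hi, map_smul, ha, smul_smul, mul_comm]

end Kills

variable {O : Type} [CommRing O] [IsDomain O] [IsDiscreteValuationRing O]
  [IsAdicComplete (maximalIdeal O) O] [Finite (ResidueField O)] [CharZero O] [Algebra O ℂ]
  {p : ℕ} [Fact p.Prime] [CharP (ResidueField O) p] {M : ℕ} [NeZero M] {S : Finset ℕ}
  {abar : ℕ → ResidueField O}

omit [IsAdicComplete (maximalIdeal O) O] [Finite (ResidueField O)] [CharZero O] in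
/-- A nonzero localised module at level `Γ₀(M)` gives a congruent form of level `M`. -/
theorem isCongruentLevel_of_ne_bot (hM : Squarefree M) (hS : ∀ v : ℕ, v.Prime → v ∣ M → v ∈ S)
    (hinj : Function.Injective (algebraMap O ℂ))
    (hEis : ∃ ℓ : ℕ, ℓ.Prime ∧ ℓ ∉ S ∧ abar ℓ ≠ 1 + (ℓ : ResidueField O))
    {e : OpRing O M S}
    (he : IsLocalizer (resIdeal S abar M) (HomMod O S (⊤ : Subgroup (ZMod M)ˣ) O) e)
    (hne : localPart O e (HomMod O S (⊤ : Subgroup (ZMod M)ˣ) O) ≠ ⊥) :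
    IsCongruentLevel S abar M := by
  have hneg : (-1 : (ZMod M)ˣ) ∈ (⊤ : Subgroup (ZMod M)ˣ) := Subgroup.mem_top _
  obtain ⟨θ, hθ⟩ := exists_character hne
  obtain ⟨ℓ, hℓp, hℓS, hℓ⟩ := hEis
  obtain ⟨P, hP, hpar⟩ := exists_parabolicOp (K := (⊤ : Subgroup (ZMod M)ˣ)) S abar hM hneg hℓp hℓS
    (fun h => hℓS (hS ℓ hℓp h)) hℓ
  obtain ⟨φ, hφ0, hφ, heig⟩ := exists_eigvec hinj he hP (hpar ℂ) θ hθ
  have hdia : ∀ u, diamond M ⊤ ℂ u φ = ((1 : (ZMod M)ˣ →* ℂˣ) u : ℂ) • φ := fun u => by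
    rw [MonoidHom.one_apply, Units.val_one, one_smul]
    exact diamond_top ℂ u φ
  set a : ℕ → ℂ := fun l => if h : l.Prime ∧ l ∉ S then θ (X (Sum.inr ⟨l, h⟩)) else 0 with ha
  obtain ⟨f, lam, hf, hf1, hseq, -, hla⟩ := exists_eigenForm (S := S) (a := a) hneg hφ hφ0 hdia
    fun l _ hlS => by
      have h := heig (X (Sum.inr ⟨l, Fact.out, hlS⟩))
      rw [opC_inr] at h
      rw [h, ha]
      simp only [dif_pos (⟨Fact.out, hlS⟩ : l.Prime ∧ l ∉ S)]
  obtain ⟨G, hG, hGf⟩ := exists_twist_eigenForm (e := 0) hM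
    (by rw [mul_zero, zero_add, pow_one, toDir]; exact MulChar.ext fun u => by simp) hf hf1 hseq
  have hbad : badPrimes (toDir (1 : (ZMod M)ˣ →* ℂˣ)) = ∅ := by
    refine Finset.eq_empty_of_forall_notMem fun v hv => ?_
    obtain ⟨-, -, u, -, hu⟩ := mem_badPrimes.1 hv
    exact hu (by rw [toDir_coe]; rfl)
  have hlev : twistLevel (toDir (1 : (ZMod M)ˣ →* ℂˣ)) = M := by
    rw [twistLevel, hbad, Finset.prod_empty, mul_one]
  obtain ⟨red, hred⟩ := exists_red O hinj
  let incl : integralClosure ℤ ℂ →+* integralClosure O ℂ :=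
    (integralClosure ℤ ℂ).val.toRingHom.codRestrict (integralClosure O ℂ).toSubring
      fun z => (z.2 : IsIntegral ℤ (z : ℂ)).tower_top
  suffices h : IsCongruentLevel S abar (twistLevel (toDir (1 : (ZMod M)ˣ →* ℂˣ))) by rwa [hlev] at h
  refine ⟨G, hG, red.comp incl, fun l hl hlS z hz => ?_⟩
  have hzθ : (z : ℂ) = θ (X (Sum.inr ⟨l, hl, hlS⟩)) := by
    rw [hz, hGf, etaSeq, hbad, Finset.prod_empty, one_mul]
    have h := hseq l hl 1
    rw [if_neg hl.not_dvd_one, hf1, one_mul, add_zero, mul_one, hla l hl hlS] at h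
    rw [h, ha]
    simp only [dif_pos (⟨hl, hlS⟩ : l.Prime ∧ l ∉ S)]
  have h := red_character he θ hθ hred (X (Sum.inr ⟨l, hl, hlS⟩)) (z := incl z) hzθ
  rwa [opRes_inr] at h

/-- **Descent.** A congruent eigenclass on `Γ_H` gives a congruent level `M`. -/
theorem isCongruentLevel_of_eigen (hp : p ≠ 2) (hM : Squarefree M)
    (hS : ∀ v : ℕ, v.Prime → v ∣ M → v ∈ S) (hinj : Function.Injective (algebraMap O ℂ))
    (hEis : ∃ ℓ : ℕ, ℓ.Prime ∧ ℓ ∉ S ∧ abar ℓ ≠ 1 + (ℓ : ResidueField O))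
    {K : Subgroup (ZMod M)ˣ} (hK : IsPGroup p ((ZMod M)ˣ ⧸ K))
    {red : integralClosure O ℂ →+* AlgebraicClosure (ResidueField O)}
    (hred : ∀ c : O, red (algebraMap O (integralClosure O ℂ) c) =
        algebraMap (ResidueField O) _ (residue O c))
    {φ : HomC K} (hφ : φ ≠ 0) (θR : OpRing O M S →ₐ[O] integralClosure O ℂ)
    (heig : ∀ a, opC O S K a φ = (θR a : ℂ) • φ)
    (hθ : ∀ a, red (θR a) = algebraMap (ResidueField O) _ (opRes S abar M a)) :
    IsCongruentLevel S abar M := by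
  classical
  have := Fintype.ofFinite ((ZMod M)ˣ ⧸ K)
  obtain ⟨e, he, he₀, b, hb⟩ := exists_freeData (O := O) (p := p) (Δ := (ZMod M)ˣ ⧸ K)
    (ψ := QuotientGroup.mk' K) (K := K) S abar hp hK (QuotientGroup.mk'_surjective K)
    (fun u => (QuotientGroup.eq_one_iff (N := K) u).symm) hS hEis
  refine isCongruentLevel_of_ne_bot hM hS hinj hEis he₀ fun h0 => ?_
  -- then the localised module of level `Γ_H` vanishes
  have hd : Module.finrank O (localPart O e (HomMod O S (⊤ : Subgroup (ZMod M)ˣ) O)) = 0 := by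
    rw [h0]
    exact finrank_bot O _
  have hM0 : ∀ x : HomMod O S K O, e • x = 0 := fun x => by
    obtain ⟨c, hc⟩ := hb.2 ⟨e • x, he.idem x⟩
    have hemp : IsEmpty (Fin (Module.finrank O
        (localPart O e (HomMod O S (⊤ : Subgroup (ZMod M)ˣ) O))) × ((ZMod M)ˣ ⧸ K)) := by
      rw [hd]
      infer_instance
    rw [Subsingleton.elim c 0] at hc
    simp only [Finsupp.sum_zero_index] at hc
    exact (congrArg Subtype.val hc).symm
  have h1 : (θR e : ℂ) = 0 := by
    refine smul_left_injective ℂ hφ ?_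
    show (θR e : ℂ) • φ = (0 : ℂ) • φ
    rw [← heig, opC_eq_zero_of_forall hM0, zero_smul, LinearMap.zero_apply]
  have h2 : θR e = 0 := Subtype.ext h1
  have h3 := hθ e
  have hone : opRes S abar M e = 1 := by
    have := he.sub_one_mem
    rwa [mem_resIdeal, map_sub, map_one, sub_eq_zero] at this
  rw [h2, map_zero, hone, map_one] at h3
  exact zero_ne_one h3

end Fermat.Agent.RT.GammaH
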