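import Fermat.Agent.Newforms.Semisimple

/-!
# `|a_v| < v + 1` for normalised eigenforms and `v` prime to the level

The Petersson square of `v g(vτ) ± g(τ)` is a positive multiple of `(v + 1) ± a_v`.
-/

set_option autoImplicit false

noncomputable section

open CongruenceSubgroup UpperHalfPlane ModularFormClass MeasureTheory
open scoped MatrixGroups ModularForm ComplexConjugate

namespace Fermat.Agent.RT.GammaH

open Fermat.Agent.Newforms
open P2MW.S_ModularForm_heckeT_slash_eq_self_of_mem_Gamma0.ModularForm.HeckeSlashInvariance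

theorem exists_peterssonInner_combination {N v : ℕ} [NeZero N] (hv : v.Prime) (hvN : ¬ v ∣ N)
    {g : CuspForm (Gamma0 N) 2} (hg : g.IsNormalizedEigenform) [NeZero (N * v)] (c : ℝ) :
    ∃ W : CuspForm (Gamma0 (N * v)) 2, qCoeff W 1 = c ∧
      ((v : ℂ) + 1) * peterssonInner W W =
        peterssonInner g g * (((v : ℂ) + 1) * (1 + c ^ 2) + 2 * c * qCoeff g v) := by
  classical
  have : Fact v.Prime := ⟨hv⟩
  have : NeZero (N * v * v) := ⟨mul_ne_zero (NeZero.ne _) hv.ne_zero⟩
  -- the two forms of level `N v`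
  set g₁ : CuspForm (Gamma0 (N * v)) 2 := levelIncl (dvd_mul_right N v) g with hg₁
  set h : CuspForm (Gamma0 (N * v)) 2 :=
    (v : ℂ) • levelRaise v (dvd_of_eq (mul_comm v N)) g with hh
  have hgcoe : ⇑g₁ = ⇑g := coe_levelIncl _ _
  have hhcoe : ⇑h = ⇑g ∣[(2 : ℤ)] ModularForm.heckeDiagMatrix v := by
    funext τ
    rw [hh, FunLike.coe_smul, Pi.smul_apply, smul_eq_mul, ModularForm.slash_heckeDiagMatrix_apply 2 hv.ne_zero,
      levelRaise_apply, show (2 : ℤ) - 1 = 1 by norm_num, zpow_one]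
  clear_value h g₁
  set P := meanOn (auxDomain N v) (petersson 2 g g) with hP
  have hPinner : peterssonInner g g = P := peterssonInner_eq_mean (ℓ := v) g g
  have hmean : ∀ a b : CuspForm (Gamma0 (N * v)) 2,
      peterssonInner a b = meanOn (auxDomain N v) (petersson 2 a b) := fun a b =>
    (meanOn_eq (relIndex_imageSub _) (relIndex_imageSub _) goodDomain_gamma0Domain
      goodDomain_auxDomain ((bdd2_cuspForm a).isBC (bdd2_cuspForm b))
      (petersson_invariant (fun _ h => slash_gamma0_eq a h) fun _ h => slash_gamma0_eq b h)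
      (petersson_invariant (slash_invariant_self dvd_rfl a) (slash_invariant_self dvd_rfl b))).symm
  have hgg : peterssonInner g₁ g₁ = P := by rw [hmean, hgcoe]
  -- `‖h‖ = ‖g₁‖`
  have hhh : peterssonInner h h = P := by
    rw [← hgg, peterssonInner_eq_mean (ℓ := v) h h, peterssonInner_eq_mean (ℓ := v) g₁ g₁]
    have hadj := mean_adjoint (N := N * v) (ℓ := v) g₁ h (A := ModularForm.heckeDiagMatrix v)
      (A' := ModularForm.heckeMatrix v 0) (B := !![(v : ℤ), 0; 0, 1]) (by
        rw [ModularForm.val_heckeDiagMatrix hv.ne_zero]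
        ext i j; fin_cases i <;> fin_cases j <;> simp [realMat])
      (by simp [Matrix.det_fin_two_of]) (by
        rw [ModularForm.val_heckeMatrix hv.ne_zero, Matrix.adjugate_fin_two_of]
        ext i j; fin_cases i <;> fin_cases j <;> simp [realMat])
    have e2 : ⇑h ∣[(2 : ℤ)] ModularForm.heckeMatrix v 0 = ⇑g₁ := by
      rw [hgcoe, hhcoe, ← SlashAction.slash_mul, ALData.slash_two_of_smul (g' := 1)
        (Nat.cast_pos.2 hv.pos) (by simp) ?_, SlashAction.slash_one]
      rw [Units.val_mul, ModularForm.val_heckeDiagMatrix hv.ne_zero,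
        ModularForm.val_heckeMatrix hv.ne_zero, Units.val_one]
      ext i j; fin_cases i <;> fin_cases j <;> simp [Matrix.mul_apply, Fin.sum_univ_two]
    rw [e2, hgcoe, ← hhcoe] at hadj
    simpa [hgcoe] using hadj
  -- `(v + 1) ⟨g, g|diag⟩ = a_v ‖g‖²`
  choose B A' hB hdet hA' hx hxa using exists_doubleCoset (N := N) (ℓ := v) hvN
  obtain ⟨B₀, -, hdet₀, hB₀⟩ := exists_heckeRep_eq (ℓ := v) ((0 : ZMod v) : OnePoint (ZMod v))
  set I := meanOn (auxDomain N v) (petersson 2 g (⇑g ∣[(2 : ℤ)]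
    heckeRep v ((0 : ZMod v) : OnePoint (ZMod v)))) with hI
  have hall : ∀ x : OnePoint (ZMod v),
      meanOn (auxDomain N v) (petersson 2 g (⇑g ∣[(2 : ℤ)] heckeRep v x)) = I := by
    intro x
    obtain ⟨γ, hγ, δ, hδ, hxe⟩ := hx x
    exact mean_doubleCoset g g hB₀ hdet₀ hγ hδ hxe
  have hT : ((v : ℂ) + 1) * I = qCoeff g v * P := by
    have hr : petersson 2 ⇑g ⇑(CuspForm.heckeTLin 2 hv hvN g) =
        fun τ => ∑ x, petersson 2 g (⇑g ∣[(2 : ℤ)] heckeRep v x) τ := by
      funext τ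
      rw [CuspForm.coe_heckeTLin_apply, heckeT_eq_sum_onePoint]
      simp [petersson, Finset.sum_apply, Finset.mul_sum, Finset.sum_mul]
    have h2 : peterssonInner g (CuspForm.heckeTLin 2 hv hvN g) = qCoeff g v * P := by
      rw [← hOp_eq_heckeTLin hv hvN, hOp_of_isNormalizedEigenform hg hv,
        peterssonInner_smul_right, hPinner]
    rw [← h2, peterssonInner_eq_mean (ℓ := v), hr, meanOn_sum _ goodDomain_auxDomain.lt_top
      (fun x _ => (bdd2_cuspForm g).isBC (bdd2_slash g _)), Finset.sum_congr rfl fun x _ => hall x,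
      Finset.sum_const, Finset.card_univ, show Fintype.card (OnePoint (ZMod v)) = v + 1 from
        Fintype.card_option.trans (by rw [ZMod.card]), nsmul_eq_mul]
    push_cast
    ring
  have hv1 : (v : ℂ) + 1 ≠ 0 := Nat.cast_add_one_ne_zero v
  have hgh : peterssonInner g₁ h = I := by
    rw [hmean, hgcoe, hhcoe, ← hall (OnePoint.infty), heckeRep_infty]
  have hconjP : conj P = P := by rw [← hPinner, peterssonInner_conj]
  have hconjI : conj I = I := by
    refine mul_left_cancel₀ hv1 ?_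
    have h1 := congrArg (starRingEnd ℂ) hT
    rw [map_mul, map_add, Complex.conj_natCast, map_one, map_mul, hconjP,
      conj_qCoeff hg hv hvN] at h1
    rw [h1, hT]
  have hhg : peterssonInner h g₁ = I := by rw [← peterssonInner_conj, hgh, hconjI]
  refine ⟨h + (c : ℂ) • g₁, ?_, ?_⟩
  · have hh1 : qCoeff h 1 = 0 := by
      rw [hh, qCoeff_smul, qCoeff_levelRaise, if_neg hv.not_dvd_one, mul_zero]
    rw [qCoeff_add, qCoeff_smul, hh1, hg₁, qCoeff_levelIncl, hg.qCoeff_one, zero_add, mul_one]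
  · rw [peterssonInner_add_left, peterssonInner_add_right, peterssonInner_add_right,
      peterssonInner_smul_left, peterssonInner_smul_right, peterssonInner_smul_left,
      peterssonInner_smul_right, hhh, hgh, hhg, hgg, Complex.conj_ofReal, hPinner]
    linear_combination (2 * (c : ℂ)) * hT

/-- `‖W‖² > 0` for `W ≠ 0`. -/
theorem exists_peterssonInner_self_pos {N : ℕ} [NeZero N] {W : CuspForm (Gamma0 N) 2}
    (hW : W ≠ 0) : ∃ r : ℝ, 0 < r ∧ peterssonInner W W = r := by
  obtain ⟨r, hr⟩ : ∃ r : ℝ, peterssonInner W W = r :=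
    ⟨_, (Complex.conj_eq_iff_re.1 (peterssonInner_conj W W)).symm⟩
  refine ⟨r, lt_of_le_of_ne ?_ fun h => hW (peterssonInner_self_eq_zero (by rw [hr, ← h]; simp)), hr⟩
  have h : peterssonInner W W = (((volume (gamma0Domain N)).toReal⁻¹ *
      ∫ x in gamma0Domain N, Complex.normSq (W x) * x.im ^ (2 : ℤ) : ℝ) : ℂ) := by
    rw [peterssonInner, meanOn, funext (petersson_self_eq W), integral_complex_ofReal]
    push_cast
    rfl
  rw [hr, Complex.ofReal_inj] at h
  exact h ▸ mul_nonneg (inv_nonneg.2 ENNReal.toReal_nonneg)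
    (integral_nonneg fun x => mul_nonneg (Complex.normSq_nonneg _) (by positivity))

/-- **Strict bound for `a_v`**, `v` prime to the level. -/
theorem norm_qCoeff_lt_succ {N v : ℕ} [NeZero N] (hv : v.Prime) (hvN : ¬ v ∣ N)
    {g : CuspForm (Gamma0 N) 2} (hg : g.IsNormalizedEigenform) :
    ‖qCoeff g v‖ < (v : ℝ) + 1 := by
  have : NeZero (N * v) := ⟨mul_ne_zero (NeZero.ne N) hv.ne_zero⟩
  obtain ⟨P, hP, hgg⟩ := exists_peterssonInner_self_pos hg.ne_zero
  obtain ⟨a, ha⟩ : ∃ a : ℝ, qCoeff g v = a :=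
    ⟨_, (Complex.conj_eq_iff_re.1 (conj_qCoeff hg hv hvN)).symm⟩
  have key : ∀ c : ℝ, c ^ 2 = 1 → 0 < ((v : ℝ) + 1) + c * a := fun c hc => by
    obtain ⟨W, hW1, hW⟩ := exists_peterssonInner_combination hv hvN hg c
    obtain ⟨r, hr, hWW⟩ := exists_peterssonInner_self_pos (W := W) fun h0 => by
      have h1 := (coeffLin (N := N * v) (k := 2) 1).map_zero
      rw [coeffLin_apply, ← h0, hW1] at h1
      rw [Complex.ofReal_eq_zero.1 h1] at hc
      norm_num at hc
    rw [hWW, hgg, ha] at hW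
    have hW' : ((v : ℝ) + 1) * r = P * (((v : ℝ) + 1) * (1 + c ^ 2) + 2 * c * a) := by
      exact_mod_cast hW
    rw [hc] at hW'
    nlinarith [mul_pos (show (0 : ℝ) < (v : ℝ) + 1 by positivity) hr]
  rw [ha, Complex.norm_real, Real.norm_eq_abs, abs_lt]
  constructor
  · linarith [key 1 (by norm_num)]
  · linarith [key (-1) (by norm_num)]

theorem qCoeff_ne_mul_succ {N v : ℕ} [NeZero N] (hv : v.Prime) (hvN : ¬ v ∣ N)
    {g : CuspForm (Gamma0 N) 2} (hg : g.IsNormalizedEigenform) {s : ℂ} (hs : s = 1 ∨ s = -1) :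
    qCoeff g v ≠ s * ((v : ℂ) + 1) := fun ha => by
  refine (norm_qCoeff_lt_succ hv hvN hg).ne ?_
  rw [ha, norm_mul, show ‖s‖ = 1 by rcases hs with rfl | rfl <;> simp, one_mul,
    ← Nat.cast_add_one, Complex.norm_natCast, Nat.cast_add_one]

end Fermat.Agent.RT.GammaH
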