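import Fermat.Agent.Newforms.Semisimple
import Fermat.Agent.Newforms.LevelRaiseEigen
import Fermat.Agent.Carayol.GoodOps
import Fermat.Agent.GaloisReps.OfInjective
import Fermat.Agent.RedTorsion.Injective

/-!
# Systems which are not new at `q` are old at `q`

For `N q` squarefree, a system away from a finite set `T` which is the system of no newform of
level divisible by `q` occurs in level `N q` only in the two copies of level `N`. A system away
from `T` also fixes the eigenvalues at all the good primes.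
-/

set_option autoImplicit false

noncomputable section

namespace Fermat.Agent.RT.GammaH

open CongruenceSubgroup ModularFormClass
open Fermat.Agent.Newforms (hOp levelIncl levelRaise)

/-- If `L` intertwines `A` with `B` and `L` of a sum of common eigenvectors of `A` is an eigenvector
of `B`, it is `L` of an eigenvector of `A` for the same system. -/
theorem exists_eigvec_preimage {ι E F : Type*} [AddCommGroup E] [Module ℂ E] [AddCommGroup F]
    [Module ℂ F] (A : ι → Module.End ℂ E) (B : ι → Module.End ℂ F) (L : E →ₗ[ℂ] F)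
    (hL : ∀ i x, L (A i x) = B i (L x)) (lam : ι → ℂ) {x : E}
    (hx : x ∈ Submodule.span ℂ {v | ∀ i, ∃ c : ℂ, A i v = c • v})
    (hy : ∀ i, B i (L x) = lam i • L x) :
    ∃ x', L x' = L x ∧ ∀ i, A i x' = lam i • x' := by
  classical
  obtain ⟨c, t, hts, -, hsum⟩ := Submodule.mem_span_iff_exists_finset_subset.1 hx
  subst hsum
  clear hx
  induction t using Finset.strongInduction generalizing c with
  | H t ih =>
    by_cases hgood : ∀ v ∈ t, ∀ i, A i v = lam i • v
    · refine ⟨_, rfl, fun i => ?_⟩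
      rw [map_sum, Finset.smul_sum]
      exact Finset.sum_congr rfl fun v hv => by rw [map_smul, hgood v hv i, smul_comm]
    · push Not at hgood
      obtain ⟨v₀, hv₀, i, hi⟩ := hgood
      choose mu hmu using fun v : E => fun (hv : v ∈ t) => hts hv i
      set μ := mu v₀ hv₀
      have hne : lam i - μ ≠ 0 := sub_ne_zero.2 fun h => hi (by rw [h]; exact hmu v₀ hv₀)
      let c' : E → ℂ := fun v => if hv : v ∈ t then (lam i - μ)⁻¹ * c v * (mu v hv - μ) else 0
      have key : L (∑ v ∈ t.erase v₀, c' v • v) = L (∑ v ∈ t, c v • v) := by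
        have e : ∑ v ∈ t.erase v₀, c' v • v =
            (lam i - μ)⁻¹ • (A i (∑ v ∈ t, c v • v) - μ • ∑ v ∈ t, c v • v) := by
          rw [map_sum, Finset.smul_sum, ← Finset.sum_sub_distrib, Finset.smul_sum,
            ← Finset.add_sum_erase t _ hv₀]
          rw [map_smul, hmu v₀ hv₀, smul_comm μ, sub_self, smul_zero, zero_add]
          refine Finset.sum_congr rfl fun v hv => ?_
          have hv' := Finset.mem_of_mem_erase hv
          simp only [c', dif_pos hv', map_smul, hmu v hv', smul_smul, ← sub_smul]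
          congr 1
          ring
        rw [e, map_smul, map_sub, map_smul, hL, hy i, ← sub_smul, smul_smul,
          inv_mul_cancel₀ hne, one_smul]
      obtain ⟨x', h1, h2⟩ := ih (t.erase v₀) (Finset.erase_ssubset hv₀) c'
        (fun v hv => hts (Finset.mem_of_mem_erase hv)) (fun j => by rw [key]; exact hy j)
      exact ⟨x', h1.trans key, h2⟩

/-- The forms of level `N` with eigenvalues `lam ℓ` at the primes `ℓ ∉ T`. -/
def eigForms (N : ℕ) [NeZero N] (T : Finset ℕ) (lam : ℕ → ℂ) :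
    Submodule ℂ (CuspForm (Gamma0 N) 2) :=
  ⨅ i : {ℓ : ℕ // ℓ.Prime ∧ ℓ ∉ T}, LinearMap.ker (hOp N i.2.1 - lam i.1 • 1)

theorem mem_eigForms {N : ℕ} [NeZero N] {T : Finset ℕ} {lam : ℕ → ℂ}
    {f : CuspForm (Gamma0 N) 2} :
    f ∈ eigForms N T lam ↔ ∀ ℓ (hℓ : ℓ.Prime), ℓ ∉ T → hOp N hℓ f = lam ℓ • f := by
  simp [eigForms, Submodule.mem_iInf, sub_eq_zero, Subtype.forall]

/-- Raising keeps the system. -/
theorem levelRaise_mem_eigForms {R N d : ℕ} [NeZero R] [NeZero N] (h : d * R ∣ N) {T : Finset ℕ}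
    (hT : ∀ ℓ : ℕ, ℓ.Prime → ℓ ∣ N → ℓ ∈ T) {lam : ℕ → ℂ} {f : CuspForm (Gamma0 R) 2}
    (hf : f ∈ eigForms R T lam) : levelRaise d h f ∈ eigForms N T lam := by
  refine mem_eigForms.2 fun ℓ hℓ hℓT => ?_
  have hN : ¬ ℓ ∣ N := fun hd => hℓT (hT ℓ hℓ hd)
  rw [Newforms.hOp_levelRaise hℓ h (fun hd => hN ((hd.mul_right R).trans h))
    ⟨fun hd => absurd hd hN, fun hd => (hd.mul_left d).trans h⟩, mem_eigForms.1 hf ℓ hℓ hℓT,
    map_smul]

/-- Two raisings make one. -/
theorem levelRaise_comm {R A B N d e : ℕ} [NeZero A] [NeZero B] [NeZero N] (hA : d * R ∣ A)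
    (hAN : e * A ∣ N) (hB : e * R ∣ B) (hBN : d * B ∣ N) (f : CuspForm (Gamma0 R) 2) :
    levelRaise e hAN (levelRaise d hA f) = levelRaise d hBN (levelRaise e hB f) := by
  have hd : d ≠ 0 := fun h => NeZero.ne N (by simpa [h] using hBN)
  have he : e ≠ 0 := fun h => NeZero.ne N (by simpa [h] using hAN)
  refine DFunLike.ext _ _ fun τ => ?_
  rw [Newforms.levelRaise_apply, Newforms.levelRaise_apply, Newforms.levelRaise_apply,
    Newforms.levelRaise_apply]
  congr 1
  refine UpperHalfPlane.ext ?_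
  simp only [ModularForm.coe_heckeDiagMatrix_smul hd, ModularForm.coe_heckeDiagMatrix_smul he]
  ring

/-- A system away from `T` fixes the eigenvalues at all the good primes. -/
theorem exists_hOp_eq_smul (N : ℕ) [NeZero N] (T : Finset ℕ) (lam : ℕ → ℂ) {l : ℕ} (hl : l.Prime)
    (hlN : ¬ l ∣ N) : ∃ c : ℂ, ∀ f ∈ eigForms N T lam, hOp N hl f = c • f := by
  obtain ⟨r, hr, hrp⟩ := Nat.exists_infinite_primes (l + 1)
  have : Fact r.Prime := ⟨hrp⟩
  have hlNr : ¬ l ∣ N * r := fun h => (hl.dvd_mul.1 h).elim hlN fun h => by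
    have := (Nat.prime_dvd_prime_iff_eq hl hrp).1 h
    omega
  set S := T ∪ N.primeFactors
  obtain ⟨z, hz, t, ht⟩ := Carayol.exists_zsmul_mem_good
    (GaloisReps.modelOfCongruence (GaloisReps.congruenceProperty_of_injective (p := r)
      (RedTorsion.injectiveOnTorsion N))) hl hlNr S
  have hall : ∀ x : CuspForm.heckeAlgebra N 2 (↑S : Set ℕ),
      ∃ c : ℂ, ∀ f ∈ eigForms N T lam, x.1 f = c • f := by
    rintro ⟨x, hx⟩
    induction hx using Algebra.adjoin_induction with
    | mem y hy =>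
      rcases hy with ⟨ℓ, hℓ, hℓN, hℓS, rfl⟩ | ⟨q, hqN, hq, hqS, rfl⟩
      · refine ⟨lam ℓ, fun f hf => ?_⟩
        show CuspForm.heckeTLin 2 hℓ hℓN f = _
        rw [← Newforms.hOp_eq_heckeTLin hℓ hℓN]
        exact mem_eigForms.1 hf ℓ hℓ fun h => hℓS (Finset.mem_coe.2 (Finset.mem_union_left _ h))
      · exact absurd (Finset.mem_coe.2 (Finset.mem_union_right _
          (Nat.mem_primeFactors.2 ⟨hq, hqN, NeZero.ne N⟩))) hqS
    | algebraMap n =>
      refine ⟨(n : ℂ), fun f _ => ?_⟩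
      simp [Module.algebraMap_end_apply, Int.cast_smul_eq_zsmul]
    | add a b _ _ ha hb =>
      obtain ⟨c, hc⟩ := ha
      obtain ⟨d, hd⟩ := hb
      exact ⟨c + d, fun f hf => by rw [LinearMap.add_apply, hc f hf, hd f hf, add_smul]⟩
    | mul a b _ _ ha hb =>
      obtain ⟨c, hc⟩ := ha
      obtain ⟨d, hd⟩ := hb
      exact ⟨d * c, fun f hf => by
        rw [Module.End.mul_apply, hd f hf, map_smul, hc f hf, smul_smul]⟩
  obtain ⟨c, hc⟩ := hall t
  refine ⟨(z : ℂ)⁻¹ * c, fun f hf => ?_⟩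
  have h : (z : ℂ) • hOp N hl f = c • f := by
    rw [Int.cast_smul_eq_zsmul, ← hc f hf]
    exact (LinearMap.congr_fun (congrArg Subtype.val ht) f).symm
  rw [← smul_smul, ← h, inv_smul_smul₀ (Int.cast_ne_zero.2 hz)]

/-- **Oldness.** A system which is that of no newform of level divisible by `q` occurs in level
`N q` only through the two copies of level `N`. -/
theorem eigForms_le_old {q : ℕ} (hq : q.Prime) {T : Finset ℕ} {lam : ℕ → ℂ} :
    ∀ (N : ℕ) [NeZero N] [NeZero (N * q)], Squarefree (N * q) →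
      (∀ ℓ : ℕ, ℓ.Prime → ℓ ∣ N * q → ℓ ∈ T) →
      (∀ (M : ℕ) (g : CuspForm (Gamma0 M) 2), g.IsNewform → M ∣ N * q →
        (∀ ℓ : ℕ, ℓ.Prime → ℓ ∉ T → qCoeff g ℓ = lam ℓ) → ¬ q ∣ M) →
      eigForms (N * q) T lam ≤
        (eigForms N T lam).map (levelIncl (dvd_mul_right N q)) ⊔
          (eigForms N T lam).map (levelRaise q (mul_comm q N).dvd) := by
  classical
  intro N
  induction N using Nat.strong_induction_on with
  | h N ih =>
    intro _ _ hsq hT hnew f hf
    rcases eq_or_ne f 0 with rfl | hf0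
    · exact zero_mem _
    set old := (eigForms N T lam).map (levelIncl (dvd_mul_right N q)) ⊔
      (eigForms N T lam).map (levelRaise q (mul_comm q N).dvd)
    -- a normalised eigenform of level `N` with the system
    obtain ⟨u, hu, hul⟩ := Newforms.exists_eigenform_of_eigen hf0 (· ∉ T) lam (mem_eigForms.1 hf)
    obtain ⟨M, g, hML, hg, hgu⟩ := Newforms.exists_newform hu
    have hgl : ∀ ℓ : ℕ, ℓ.Prime → ℓ ∉ T → qCoeff g ℓ = lam ℓ := fun ℓ hℓ hℓT =>
      (hgu ℓ hℓ fun h => hℓT (hT ℓ hℓ h)).trans (hul ℓ hℓ hℓT)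
    have hMN : M ∣ N := (Nat.Coprime.dvd_of_dvd_mul_right
      ((hq.coprime_iff_not_dvd.2 (hnew M g hg hML hgl)).symm) hML)
    obtain ⟨u₀, hu₀, hu₀g⟩ := Newforms.exists_eigenform_of_dvd hMN hg.1
    have hu₀mem : u₀ ∈ eigForms N T lam := mem_eigForms.2 fun ℓ hℓ hℓT => by
      rw [Newforms.hOp_of_isNormalizedEigenform hu₀ hℓ,
        hu₀g ℓ hℓ (Or.inr fun h => hℓT (hT ℓ hℓ (h.mul_right q))), hgl ℓ hℓ hℓT]
    have hincl : levelIncl (dvd_mul_right N q) u₀ ∈ eigForms (N * q) T lam :=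
      levelRaise_mem_eigForms _ hT hu₀mem
    set f₁ : CuspForm (Gamma0 (N * q)) 2 := f - qCoeff f 1 • levelIncl (dvd_mul_right N q) u₀
      with hf₁def
    have ha1 : qCoeff f₁ 1 = 0 := by
      have h := (Newforms.coeffLin (N := N * q) (k := 2) 1).map_sub f
        (qCoeff f 1 • levelIncl (dvd_mul_right N q) u₀)
      simp only [map_smul, Newforms.coeffLin_apply, Newforms.qCoeff_levelIncl, hu₀.qCoeff_one,
        smul_eq_mul, mul_one, sub_self] at h
      exact h
    suffices key : f₁ ∈ old by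
      rw [hf₁def] at key
      have := add_mem key (Submodule.smul_mem old (qCoeff f 1)
        (Submodule.mem_sup_left (Submodule.mem_map_of_mem hu₀mem)))
      rwa [sub_add_cancel] at this
    have hf₁ : f₁ ∈ eigForms (N * q) T lam := sub_mem hf (Submodule.smul_mem _ _ hincl)
    clear_value f₁
    -- the main lemma
    choose mu hmu using fun (l : ℕ) (h : l.Prime ∧ ¬ l ∣ N * q) =>
      exists_hOp_eq_smul (N * q) T lam h.1 h.2
    have h0 := Newforms.qCoeff_eq_zero_of_coprime (M := N * q) (f := f₁)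
      (lam := fun l => if h : l.Prime ∧ ¬ l ∣ N * q then mu l h else 0)
      (fun ℓ hℓ hℓN => by rw [dif_pos ⟨hℓ, hℓN⟩]; exact hmu ℓ ⟨hℓ, hℓN⟩ f₁ hf₁) ha1
    obtain ⟨w, hw⟩ := Newforms.exists_eq_sum_levelRaise f₁ h0
    have hp : ∀ p : {p // p ∈ (N * q).primeFactors}, (p : ℕ).Prime ∧ (p : ℕ) ∣ N * q := fun p =>
      ⟨Nat.prime_of_mem_primeFactors p.2, Nat.dvd_of_mem_primeFactors p.2⟩
    have hd : ∀ p : {p // p ∈ (N * q).primeFactors}, NeZero (N * q / (p : ℕ)) := fun p =>
      ⟨(Nat.div_pos (Nat.le_of_dvd (Nat.pos_of_ne_zero (NeZero.ne _)) (hp p).2)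
        (hp p).1.pos).ne'⟩
    let ι := {ℓ : ℕ // ℓ.Prime ∧ ℓ ∉ T}
    have hι : ∀ i : ι, ¬ i.1 ∣ N * q := fun i h => i.2.2 (hT i.1 i.2.1 h)
    let E := ∀ p : {p // p ∈ (N * q).primeFactors}, CuspForm (Gamma0 (N * q / (p : ℕ))) 2
    let A : ι → Module.End ℂ E := fun i => LinearMap.pi fun p =>
      (hOp (N * q / (p : ℕ)) i.2.1).comp (LinearMap.proj p)
    let R : E →ₗ[ℂ] CuspForm (Gamma0 (N * q)) 2 := ∑ p : {p // p ∈ (N * q).primeFactors},
      (levelRaise (p : ℕ) (Nat.mul_div_cancel' (Nat.dvd_of_mem_primeFactors p.2)).dvd).comp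
        (LinearMap.proj p)
    have hR : ∀ x : E, R x = ∑ p : {p // p ∈ (N * q).primeFactors}, levelRaise (p : ℕ)
        (Nat.mul_div_cancel' (Nat.dvd_of_mem_primeFactors p.2)).dvd (x p) :=
      fun x => LinearMap.sum_apply _ _ _
    have hspan : w ∈ Submodule.span ℂ {v : E | ∀ i, ∃ c : ℂ, A i v = c • v} := by
      rw [← Finset.univ_sum_single w]
      refine Submodule.sum_mem _ fun p _ => ?_
      have hmem : w p ∈ Submodule.span ℂ {v : CuspForm (Gamma0 (N * q / (p : ℕ))) 2 |
          ∀ ℓ (hℓ : ℓ.Prime), ¬ ℓ ∣ N * q / (p : ℕ) →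
            ∃ c : ℂ, hOp (N * q / (p : ℕ)) hℓ v = c • v} := by
        rw [Newforms.span_eigenvectors_eq_top]
        exact Submodule.mem_top
      generalize w p = x at hmem ⊢
      induction hmem using Submodule.span_induction with
      | mem v hv =>
        refine Submodule.subset_span fun i => ?_
        obtain ⟨c, hc⟩ := hv i.1 i.2.1 fun h => hι i (h.trans (Nat.div_dvd_of_dvd (hp p).2))
        refine ⟨c, funext fun p' => ?_⟩
        show hOp (N * q / (p' : ℕ)) i.2.1 ((Pi.single p v : E) p') = c • (Pi.single p v : E) p'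
        rcases eq_or_ne p' p with rfl | h
        · rw [Pi.single_eq_same, hc]
        · rw [Pi.single_eq_of_ne h, map_zero, smul_zero]
      | zero => rw [Pi.single_zero]; exact zero_mem _
      | add x y _ _ hx hy => rw [Pi.single_add]; exact add_mem hx hy
      | smul a x _ hx => rw [Pi.single_smul]; exact Submodule.smul_mem _ a hx
    obtain ⟨w', hw', heig⟩ := exists_eigvec_preimage A (fun i : ι => hOp (N * q) i.2.1) R
      (fun i x => by
        rw [hR, hR, map_sum]
        refine Finset.sum_congr rfl fun p _ => ?_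
        rw [Newforms.hOp_levelRaise i.2.1 _ (fun hc => hι i (hc.trans (hp p).2))
          ⟨fun h => absurd h (hι i), fun h => h.trans (Nat.div_dvd_of_dvd (hp p).2)⟩]
        rfl)
      (fun i => lam i.1) hspan (fun i => by
        rw [hR, ← hw]
        exact mem_eigForms.1 hf₁ i.1 i.2.1 i.2.2)
    rw [hw, ← hR, ← hw', hR]
    refine Submodule.sum_mem _ fun p _ => ?_
    have hx : w' p ∈ eigForms (N * q / (p : ℕ)) T lam :=
      mem_eigForms.2 fun ℓ hℓ hℓT => congrFun (heig ⟨ℓ, hℓ, hℓT⟩) p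
    revert hx
    generalize w' p = x
    generalize (Nat.mul_div_cancel' (Nat.dvd_of_mem_primeFactors p.2)).dvd = hdvd
    obtain ⟨⟨r, hrmem⟩, hrp⟩ : ∃ r, r = p := ⟨p, rfl⟩
    subst hrp
    have hrP := (hp ⟨r, hrmem⟩).1
    have hrd := (hp ⟨r, hrmem⟩).2
    revert x hdvd
    by_cases hrq : r = q
    · subst hrq
      have e : N * r / r = N := Nat.mul_div_cancel _ hrP.pos
      intro x hdvd hx
      refine Submodule.mem_sup_right ?_
      revert hx hdvd x
      generalize hd (⟨r, hrmem⟩ : {p // p ∈ (N * r).primeFactors}) = i1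
      revert i1
      rw [e]
      exact fun _ x _ hx => Submodule.mem_map_of_mem hx
    · have hrN : r ∣ N := (hrP.dvd_mul.1 hrd).resolve_right fun h =>
        hrq ((Nat.prime_dvd_prime_iff_eq hrP hq).1 h)
      have e : N * q / r = N / r * q := by
        rw [mul_comm, Nat.mul_div_assoc q hrN, mul_comm]
      have hN' : NeZero (N / r) :=
        ⟨(Nat.div_pos (Nat.le_of_dvd (Nat.pos_of_ne_zero (NeZero.ne N)) hrN) hrP.pos).ne'⟩
      have hNq' : NeZero (N / r * q) := ⟨mul_ne_zero (NeZero.ne _) hq.ne_zero⟩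
      generalize hd (⟨r, hrmem⟩ : {p // p ∈ (N * q).primeFactors}) = i1
      revert i1
      dsimp only
      rw [e]
      intro _ x hdvd hx
      have hsub : N / r * q ∣ N * q := mul_dvd_mul_right (Nat.div_dvd_of_dvd hrN) q
      have hlt : N / r < N :=
        Nat.div_lt_self (Nat.pos_of_ne_zero (NeZero.ne N)) hrP.one_lt
      have hTN : ∀ ℓ : ℕ, ℓ.Prime → ℓ ∣ N → ℓ ∈ T := fun ℓ hℓ h => hT ℓ hℓ (h.mul_right q)
      obtain ⟨_, ⟨y, hy, rfl⟩, _, ⟨z, hz, rfl⟩, rfl⟩ := Submodule.mem_sup.1 <|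
        ih (N / r) hlt (hsq.squarefree_of_dvd hsub)
          (fun ℓ hℓ h => hT ℓ hℓ (h.trans hsub))
          (fun M g hg hM hgl => hnew M g hg (hM.trans hsub) hgl) hx
      have hry : r * (N / r) ∣ N := (Nat.mul_div_cancel' hrN).dvd
      rw [map_add]
      refine add_mem (Submodule.mem_sup_left ⟨_, levelRaise_mem_eigForms hry hTN hy, ?_⟩)
        (Submodule.mem_sup_right ⟨_, levelRaise_mem_eigForms hry hTN hz, ?_⟩)
      · exact levelRaise_comm _ _ _ _ y
      · exact levelRaise_comm _ _ _ _ z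

end Fermat.Agent.RT.GammaH
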